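import Fermat.Agent.S25.H130.Glued

/-!
# S25 / AS4 (helper130): representability from charts

`rep_of_charts : Stmt.Charts c ε → Stmt.SheafGlue c ε → Stmt.SheafSep c ε → Stmt.LocalP c ε →
  Stmt.Rep c ε`.
-/

set_option autoImplicit false
universe u
open CategoryTheory CategoryTheory.Limits AlgebraicGeometry AlgebraicGeometry.RelPicard
  NeronModelInfra GoodReductionJacobian TopologicalSpace

namespace Fermat.Agent.S25.H130

noncomputable section

variable {k : Type u} [Field k] {C : Scheme.{u}} {c : C ⟶ Spec (CommRingCat.of k)}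
  {ε : SchemeHomOver (𝟙 (Spec (CommRingCat.of k))) c}

variable {T : Scheme.{u}} {t : T ⟶ Spec (CommRingCat.of k)}

/-- The Poincaré bundle has degree zero. -/
theorem poincare_deg0 (H : Hyp c ε) (ch : ChartFamily c ε)
    (P : RigidifiedLineBundle c ε (jacStr H ch))
    (hP : ∀ i, IsPB P (jacι H ch i) (ch.bundle i)) : FibrewiseAlgEquivZero P := by
  refine localP_isPB H.locP (jacU H ch) (iSup_jacU H ch) P fun i =>
    ⟨_, jacN H ch i, ?_, (jacN_isPB H ch i).deg0 (ch.deg0 i)⟩
  exact ((hP i).comp (jacN_isPB H ch i)).of_eq (jacE_jacι H ch i)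

/-- Existence of classifying morphisms. -/
theorem exists_classify (H : Hyp c ε) (ch : ChartFamily c ε)
    (P : RigidifiedLineBundle c ε (jacStr H ch))
    (hP : ∀ i, IsPB P (jacι H ch i) (ch.bundle i))
    (M : RigidifiedLineBundle c ε t) (hM : FibrewiseAlgEquivZero M) :
    ∃ g : T ⟶ jac H ch, IsPB P g M := by
  have hW : (⨆ i, chartLocus ch i M) = ⊤ := iSup_chartLocus ch hM
  choose φ hφ using fun i => inChart_chartLocus H.sep ch i M
  have compat : ∀ i j : ch.ι,
      pullback.fst (chartLocus ch i M).ι (chartLocus ch j M).ι ≫ φ i ≫ jacι H ch i =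
        pullback.snd (chartLocus ch i M).ι (chartLocus ch j M).ι ≫ φ j ≫ jacι H ch j := by
    intro i j
    have hL := isPB_mk M
      (pullback.fst (chartLocus ch i M).ι (chartLocus ch j M).ι ≫ (chartLocus ch i M).ι) rfl
    have h1 := (hφ i).comp ((isPB_restrictOpen M _).of_comp hL)
    have h2 := (hφ j).comp ((isPB_restrictOpen M _).of_comp (hL.of_eq pullback.condition))
    simpa only [Category.assoc] using comp_jacι_eq H ch i j _ h1 h2
  let 𝒲 : T.OpenCover := T.openCoverOfIsOpenCover (fun i => chartLocus ch i M) hW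
  let g : T ⟶ jac H ch := 𝒲.glueMorphisms (fun i => φ i ≫ jacι H ch i) compat
  have hg : ∀ i, (chartLocus ch i M).ι ≫ g = φ i ≫ jacι H ch i :=
    fun i => 𝒲.ι_glueMorphisms _ compat i
  have hw : g ≫ jacStr H ch = t := by
    refine Scheme.Cover.hom_ext 𝒲 _ _ fun i => ?_
    show (chartLocus ch i M).ι ≫ g ≫ jacStr H ch = (chartLocus ch i M).ι ≫ t
    rw [← Category.assoc, hg, Category.assoc, jacι_jacStr, (hφ i).w]
  refine ⟨g, hw, ?_⟩
  refine sheafSep_isPB H.sep (fun i => chartLocus ch i M) hW _ _ fun i =>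
    ⟨_, restrictOpen M (chartLocus ch i M), ?_, isPB_restrictOpen M _⟩
  exact (isPB_mk P g hw).of_comp (((hP i).comp (hφ i)).of_eq (hg i).symm)

/-- Uniqueness of classifying morphisms. -/
theorem classify_unique (H : Hyp c ε) (ch : ChartFamily c ε)
    (P : RigidifiedLineBundle c ε (jacStr H ch))
    (hP : ∀ i, IsPB P (jacι H ch i) (ch.bundle i))
    (M : RigidifiedLineBundle c ε t) {g g' : T ⟶ jac H ch}
    (hg : IsPB P g M) (hg' : IsPB P g' M) : g = g' := by
  refine Scheme.hom_ext_of_forall g g' fun x => ?_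
  have hx : g x ∈ ⨆ i, jacU H ch i := by rw [iSup_jacU]; trivial
  have hx' : g' x ∈ ⨆ i, jacU H ch i := by rw [iSup_jacU]; trivial
  obtain ⟨i, hi⟩ := Opens.mem_iSup.1 hx
  obtain ⟨j, hj⟩ := Opens.mem_iSup.1 hx'
  let G : T.Opens := g ⁻¹ᵁ (jacU H ch i) ⊓ g' ⁻¹ᵁ (jacU H ch j)
  refine ⟨G, ⟨hi, hj⟩, ?_⟩
  have hra : Set.range (G.ι ≫ g) ⊆ Set.range (jacι H ch i) := by
    rintro _ ⟨y, rfl⟩
    exact y.2.1
  have hrb : Set.range (G.ι ≫ g') ⊆ Set.range (jacι H ch j) := by
    rintro _ ⟨y, rfl⟩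
    exact y.2.2
  have ha : IsOpenImmersion.lift (jacι H ch i) (G.ι ≫ g) hra ≫ jacι H ch i = G.ι ≫ g :=
    IsOpenImmersion.lift_fac _ _ _
  have hb : IsOpenImmersion.lift (jacι H ch j) (G.ι ≫ g') hrb ≫ jacι H ch j = G.ι ≫ g' :=
    IsOpenImmersion.lift_fac _ _ _
  have h1 : IsPB (ch.bundle i) (IsOpenImmersion.lift (jacι H ch i) (G.ι ≫ g) hra)
      (restrictOpen M G) :=
    (hP i).of_comp ((hg.comp (isPB_restrictOpen M G)).of_eq ha.symm)
  have h2 : IsPB (ch.bundle j) (IsOpenImmersion.lift (jacι H ch j) (G.ι ≫ g') hrb)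
      (restrictOpen M G) :=
    (hP j).of_comp ((hg'.comp (isPB_restrictOpen M G)).of_eq hb.symm)
  rw [← ha, ← hb]
  exact comp_jacι_eq H ch i j _ h1 h2

/-- The glued scheme is locally of finite type over `k`. -/
theorem jacStr_locallyOfFiniteType (H : Hyp c ε) (ch : ChartFamily c ε) :
    LocallyOfFiniteType (jacStr H ch) := by
  refine IsZariskiLocalAtSource.of_openCover (glueData H ch).openCover fun i => ?_
  have h : (glueData H ch).openCover.f i ≫ jacStr H ch = chStr ch i := jacι_jacStr H ch i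
  rw [h]
  exact HasRingHomProperty.Spec_iff.2 (RingHom.finiteType_algebraMap.2 (ch.finiteType i))

/-- **AS4.** Representability of the degree-zero rigidified Picard functor from a chart family
and Zariski descent. -/
theorem rep_of_charts (hCh : Stmt.Charts c ε) (hGlue : Stmt.SheafGlue c ε)
    (hSep : Stmt.SheafSep c ε) (hLoc : Stmt.LocalP c ε) : Stmt.Rep c ε := by
  obtain ⟨ch⟩ := hCh
  have H : Hyp c ε := ⟨@hSep, @hGlue, @hLoc⟩
  obtain ⟨P, hP⟩ := exists_poincare H ch
  obtain ⟨z, hz⟩ := exists_classify H ch P hP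
    (RigidifiedLineBundle.unit (c := c) (ε := ε) (𝟙 (Spec (CommRingCat.of k))))
    (fibrewiseAlgEquivZero_unit _)
  refine ⟨{ P := jac H ch, toBase := jacStr H ch, zeroSection := z, zeroSection_toBase := hz.w },
    ⟨{ poincare := P
       poincare_mem := poincare_deg0 H ch P hP
       univ := fun {T} t M hM => ?_
       zero := hz.2 }⟩, jacStr_locallyOfFiniteType H ch⟩
  obtain ⟨g, hg⟩ := exists_classify H ch P hP M hM
  exact ⟨⟨g, hg.w⟩, hg.2, fun g' hg' =>
    Subtype.ext (classify_unique H ch P hP M ⟨g'.2, hg'⟩ hg)⟩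

end

end Fermat.Agent.S25.H130
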