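/-
S25, block CECH, leaf K0 (helper130): basics of `IsFGProj` (retracts of `A[X]^n`).
Statements are exactly those of `CechSkel.lean` (K0a, K0b, K0c, K0e, K0f).
-/
import Fermat.Agent.S25.H10.CechDefs

set_option autoImplicit false

namespace Fermat.Agent.S25.H130

open Polynomial TensorProduct Fermat.Agent.S25.H10

universe u v w

variable {A : Type u} [CommRing A]

section K0
variable {N : Type v} [AddCommGroup N] [Module A N] {E : Module.End A N}

/-- `π (X ^ k • w) = E ^ k (π w)` for an `X`-equivariant map `π`. -/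
theorem k0_pi_X_pow {n : ℕ} (π : (Fin n → A[X]) →ₗ[A] N)
    (hπ : ∀ w, π ((X : A[X]) • w) = E (π w)) (k : ℕ) (w : Fin n → A[X]) :
    π ((X : A[X]) ^ k • w) = (E ^ k) (π w) := by
  induction k generalizing w with
  | zero => simp
  | succ k ih => rw [pow_succ', mul_smul, hπ, ih, pow_succ', Module.End.mul_apply]

/-- `ι (E ^ k v) = X ^ k • ι v` for an `X`-equivariant map `ι`. -/
theorem k0_iota_E_pow {n : ℕ} (ι : N →ₗ[A] (Fin n → A[X]))
    (hι : ∀ v, ι (E v) = (X : A[X]) • ι v) (k : ℕ) (v : N) :
    ι ((E ^ k) v) = (X : A[X]) ^ k • ι v := by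
  induction k generalizing v with
  | zero => simp
  | succ k ih => rw [pow_succ', Module.End.mul_apply, hι, ih, pow_succ', mul_smul]

/-- `Pi.single i (monomial k a) = a • X ^ k • Pi.single i 1`. -/
theorem k0_single_monomial {n : ℕ} (i : Fin n) (k : ℕ) (a : A) :
    (Pi.single i (monomial k a) : Fin n → A[X]) =
      a • ((X : A[X]) ^ k • (Pi.single i (1 : A[X]) : Fin n → A[X])) := by
  funext j
  by_cases hj : j = i
  · subst hj
    simp only [Pi.single_eq_same, Pi.smul_apply, smul_eq_mul, mul_one]
    rw [← C_mul_X_pow_eq_monomial, smul_eq_C_mul]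
  · simp [Pi.single_eq_of_ne hj]

/-- K0a. -/
theorem isFG_of_isFGProj (h : IsFGProj E) : IsFG E := by
  classical
  obtain ⟨n, ι, π, hπι, -, hπ⟩ := h
  refine ⟨Finset.univ.image (fun i : Fin n => π (Pi.single i (1 : A[X]))), fun v => ?_⟩
  set S : Submodule A N := Submodule.span A
    {m : N | ∃ e ∈ Finset.univ.image (fun i : Fin n => π (Pi.single i (1 : A[X]))),
      ∃ k : ℕ, m = (E ^ k) e} with hS
  have hsingle : ∀ (i : Fin n) (p : A[X]), π (Pi.single i p) ∈ S := by
    intro i p
    induction p using Polynomial.induction_on' with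
    | add p q hp hq =>
      rw [Pi.single_add, map_add]
      exact S.add_mem hp hq
    | monomial k a =>
      rw [k0_single_monomial, map_smul, k0_pi_X_pow π hπ]
      refine S.smul_mem a (Submodule.subset_span ⟨π (Pi.single i 1), ?_, k, rfl⟩)
      exact Finset.mem_image.2 ⟨i, Finset.mem_univ _, rfl⟩
  have hall : ∀ w : Fin n → A[X], π w ∈ S := by
    intro w
    rw [← Finset.univ_sum_single w, map_sum]
    exact S.sum_mem fun i _ => hsingle i (w i)
  have hv : v = π (ι v) := by
    have := congrArg (fun f : N →ₗ[A] N => f v) hπι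
    simpa using this.symm
  rw [hv]
  exact hall _

/-- K0b. A retract of `A[X]^n` is projective over `A`. -/
theorem projective_of_isFGProj (h : IsFGProj E) : Module.Projective A N := by
  obtain ⟨n, ι, π, hπι, -, -⟩ := h
  exact Module.Projective.of_split ι π hπι

/-- K0c. `E` is injective on a retract of `A[X]^n`. -/
theorem injective_of_isFGProj (h : IsFGProj E) : Function.Injective E := by
  obtain ⟨n, ι, π, hπι, hι, -⟩ := h
  rw [injective_iff_map_eq_zero]
  intro v hv
  have h1 : (X : A[X]) • ι v = 0 := by rw [← hι, hv, map_zero]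
  have h2 : ι v = 0 := by
    funext i
    have := congrFun h1 i
    simp only [Pi.smul_apply, smul_eq_mul, Pi.zero_apply] at this
    exact (Polynomial.monic_X.mul_right_eq_zero_iff).1 this
  have hv' : v = π (ι v) := by
    have := congrArg (fun f : N →ₗ[A] N => f v) hπι
    simpa using this.symm
  rw [hv', h2, map_zero]

/-- Truncation of a vector of polynomials to the coefficients of degree `< m`. -/
noncomputable def k0Trunc (A : Type u) [CommRing A] (n m : ℕ) :
    (Fin n → A[X]) →ₗ[A] (Fin n → Fin m → A) :=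
  LinearMap.pi fun i => LinearMap.pi fun j =>
    (Polynomial.lcoeff A (j : ℕ)) ∘ₗ (LinearMap.proj i)

@[simp] theorem k0Trunc_apply (n m : ℕ) (w : Fin n → A[X]) (i : Fin n) (j : Fin m) :
    k0Trunc A n m w i j = (w i).coeff (j : ℕ) := rfl

/-- The vector of polynomials of degree `< m` with prescribed coefficients. -/
noncomputable def k0Untrunc (A : Type u) [CommRing A] (n m : ℕ) :
    (Fin n → Fin m → A) →ₗ[A] (Fin n → A[X]) :=
  LinearMap.pi fun i =>
    (∑ j : Fin m, (Polynomial.monomial (j : ℕ) : A →ₗ[A] A[X]) ∘ₗ (LinearMap.proj j)) ∘ₗ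
      (LinearMap.proj i)

@[simp] theorem k0Untrunc_apply (n m : ℕ) (c : Fin n → Fin m → A) (i : Fin n) :
    k0Untrunc A n m c i = ∑ j : Fin m, Polynomial.monomial (j : ℕ) (c i j) := by
  simp [k0Untrunc]

theorem k0_coeff_untrunc (n m : ℕ) (c : Fin n → Fin m → A) (i : Fin n) (d : ℕ) :
    (k0Untrunc A n m c i).coeff d = if h : d < m then c i ⟨d, h⟩ else 0 := by
  classical
  rw [k0Untrunc_apply, Polynomial.finsetSum_coeff]
  simp only [Polynomial.coeff_monomial]
  split_ifs with h
  · rw [Finset.sum_eq_single (⟨d, h⟩ : Fin m)]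
    · simp
    · intro j _ hj
      have : (j : ℕ) ≠ d := fun hjd => hj (Fin.ext hjd)
      simp [this]
    · intro hnot
      exact absurd (Finset.mem_univ _) hnot
  · refine Finset.sum_eq_zero fun j _ => ?_
    have : (j : ℕ) ≠ d := fun hjd => h (hjd ▸ j.2)
    simp [this]

/-- A vector of polynomials differs from its truncation by a multiple of `X ^ m`. -/
theorem k0_exists_sub_untrunc (n m : ℕ) (w : Fin n → A[X]) :
    ∃ w' : Fin n → A[X], w - k0Untrunc A n m (k0Trunc A n m w) = (X : A[X]) ^ m • w' := by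
  have hdvd : ∀ i, (X : A[X]) ^ m ∣ w i - k0Untrunc A n m (k0Trunc A n m w) i := by
    intro i
    rw [Polynomial.X_pow_dvd_iff]
    intro d hd
    rw [Polynomial.coeff_sub, k0_coeff_untrunc, dif_pos hd, k0Trunc_apply, sub_self]
  choose w' hw' using hdvd
  refine ⟨w', ?_⟩
  funext i
  simp only [Pi.sub_apply, Pi.smul_apply, smul_eq_mul]
  exact hw' i

/-- Truncation kills multiples of `X ^ m`. -/
theorem k0Trunc_X_pow_smul (n m : ℕ) (w : Fin n → A[X]) :
    k0Trunc A n m ((X : A[X]) ^ m • w) = 0 := by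
  funext i j
  simp only [k0Trunc_apply, Pi.smul_apply, smul_eq_mul, Pi.zero_apply]
  rw [Polynomial.coeff_X_pow_mul']
  simp [not_le.2 j.2]

/-- K0e. `N / E^m N` is finitely generated projective over `A`. -/
theorem quotient_pow_finite_projective (h : IsFGProj E) (m : ℕ) :
    Module.Finite A (N ⧸ LinearMap.range (E ^ m)) ∧
      Module.Projective A (N ⧸ LinearMap.range (E ^ m)) := by
  obtain ⟨n, ι, π, hπι, hι, hπ⟩ := h
  have hπι' : ∀ v, π (ι v) = v := fun v => by
    have := congrArg (fun f : N →ₗ[A] N => f v) hπι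
    simpa using this
  -- the two maps of the retraction
  let f : (N ⧸ LinearMap.range (E ^ m)) →ₗ[A] (Fin n → Fin m → A) :=
    Submodule.liftQ _ (k0Trunc A n m ∘ₗ ι) (by
      rintro _ ⟨v, rfl⟩
      rw [LinearMap.mem_ker, LinearMap.comp_apply, k0_iota_E_pow ι hι, k0Trunc_X_pow_smul])
  let g : (Fin n → Fin m → A) →ₗ[A] (N ⧸ LinearMap.range (E ^ m)) :=
    (LinearMap.range (E ^ m)).mkQ ∘ₗ π ∘ₗ k0Untrunc A n m
  have hgf : g ∘ₗ f = LinearMap.id := by
    refine LinearMap.ext fun x => ?_
    obtain ⟨v, rfl⟩ := Submodule.Quotient.mk_surjective _ x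
    show (LinearMap.range (E ^ m)).mkQ (π (k0Untrunc A n m (k0Trunc A n m (ι v)))) =
      Submodule.Quotient.mk v
    rw [Submodule.mkQ_apply, eq_comm, Submodule.Quotient.eq]
    obtain ⟨w', hw'⟩ := k0_exists_sub_untrunc n m (ι v)
    refine ⟨π w', ?_⟩
    rw [← k0_pi_X_pow π hπ, ← hw', map_sub, hπι']
  have hsurj : Function.Surjective g := fun x =>
    ⟨f x, by
      have := congrArg (fun F : (N ⧸ LinearMap.range (E ^ m)) →ₗ[A] _ => F x) hgf
      simpa using this⟩
  exact ⟨Module.Finite.of_surjective g hsurj, Module.Projective.of_split f g hgf⟩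

/-- K0f. Typeclass form ⇒ elementary form: if `N` is a finitely generated projective module over
`A[X]` (scalar tower over `A`), then multiplication by `X` satisfies `IsFGProj`. -/
theorem isFGProj_of_module [Module A[X] N] [IsScalarTower A A[X] N] [Module.Finite A[X] N]
    [Module.Projective A[X] N] :
    IsFGProj ((Algebra.lsmul A A N (X : A[X])) : Module.End A N) := by
  obtain ⟨n, f, hf⟩ := Module.Finite.exists_fin' A[X] N
  obtain ⟨s, hs⟩ := Module.projective_lifting_property f LinearMap.id hf
  refine ⟨n, s.restrictScalars A, f.restrictScalars A, ?_, ?_, ?_⟩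
  · refine LinearMap.ext fun v => ?_
    have := congrArg (fun F : N →ₗ[A[X]] N => F v) hs
    simpa using this
  · intro v
    simp
  · intro w
    simp

end K0

end Fermat.Agent.S25.H130
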