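/-
S25, block ALGCHARTS, input DEG2 from block DEGREE (helper130): exact statement of
`origin/helper11:coord/S25-ALGCHARTS-skeleton.lean`.

* `degree_eq_of_section` : a section `s` of `G(n E₀)` which does not vanish on `E₀` has
  `dim N₀ / (s₀) = deg G + n d`.

Route: `s` is a morphism `unit → G(n)`; it is injective with finite-dimensional cokernels
`Q₀, Q₁` (H565 D3), so `deg G(n) = dim Q₀ + dim Q₁ - dim Q₀₁`; since `s₁` generates `N₁` modulo
`y`, multiplication by `y` is onto, hence bijective, on `Q₁`, so `Q₁ → Q₀₁ = Q₁[1/y]` is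
bijective; finally `deg G(n) = deg G + n d` (H10 D4).
-/
import Fermat.Agent.S25.H11.ACDefs
import Fermat.Agent.S25.H10.DegreeTwist
import Fermat.Agent.S25.H565.DegreeD3
import Fermat.Agent.S25.H447.ACInj
import Fermat.Agent.S25.H71.ChartLoc

set_option autoImplicit false
set_option linter.style.haveILetI false
set_option linter.unusedSectionVars false

universe u

open scoped TensorProduct

namespace Fermat.Agent.S25.H130

open Fermat.Agent.S25 Fermat.Agent.S25.H10 Fermat.Agent.S25.H11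

/-! ### Two general lemmas on cokernels -/

section Coker

variable {K R R' : Type*} [Field K] [CommRing R] [CommRing R'] [Algebra K R] [Algebra K R']
  [Algebra R R']
  {N N' M M' : Type*} [AddCommGroup N] [Module R N] [AddCommGroup N'] [Module R N']
  [AddCommGroup M] [Module R' M] [Module R M] [IsScalarTower R R' M]
  [AddCommGroup M'] [Module R' M'] [Module R M'] [IsScalarTower R R' M']
  [Module K N'] [IsScalarTower K R N'] [Module K M'] [IsScalarTower K R' M']
  [IsScalarTower K R M']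

/-- If `N'/P` is finite-dimensional and multiplication by `t` is onto on `N'/P`, then it is
injective on `N'/P`. -/
theorem deg2_smul_mem_cancel (P : Submodule R N') [Module.Finite K (N' ⧸ P)] (t : R)
    (hsurj : ∀ c : N', ∃ c' : N', c - t • c' ∈ P) (c : N') (hc : t • c ∈ P) : c ∈ P := by
  let Y : (N' ⧸ P) →ₗ[K] (N' ⧸ P) :=
    (P.mapQ P (LinearMap.lsmul R N' t) (fun c hc => P.smul_mem t hc)).restrictScalars K
  have hY : ∀ c : N', Y (Submodule.Quotient.mk c) = Submodule.Quotient.mk (t • c) :=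
    fun c => rfl
  have hYs : Function.Surjective Y := by
    intro q
    induction q using Submodule.Quotient.induction_on with
    | _ c =>
      obtain ⟨c', hc'⟩ := hsurj c
      refine ⟨Submodule.Quotient.mk c', ?_⟩
      rw [hY, eq_comm, Submodule.Quotient.eq]
      exact hc'
  have hYi : Function.Injective Y := LinearMap.injective_iff_surjective.mpr hYs
  have h0 : Y (Submodule.Quotient.mk c) = 0 := by
    rw [hY]
    exact (Submodule.Quotient.mk_eq_zero P).mpr hc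
  have h1 : (Submodule.Quotient.mk c : N' ⧸ P) = 0 := hYi (by rw [h0, map_zero])
  exact (Submodule.Quotient.mk_eq_zero P).mp h1

variable (r : N →ₗ[R] M) (r' : N' →ₗ[R] M')
  (φ : N →ₗ[R] N') (ψ : M →ₗ[R'] M') (comm : ∀ s, ψ (r s) = r' (φ s))

/-- The map on cokernels induced by localization is injective, if `r'` is injective and
multiplication by `t` is injective on the cokernel of `φ`. -/
theorem deg2_cokerLoc_injective (t : R) [IsLocalization.Away t R'] (hr : IsBaseChange R' r)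
    (hr' : Function.Injective r')
    (ht : ∀ c : N', t • c ∈ LinearMap.range φ → c ∈ LinearMap.range φ) :
    Function.Injective (H71.cokerLoc (K := K) r r' φ ψ comm) := by
  have hloc : IsLocalizedModule (Submonoid.powers t) r :=
    (isLocalizedModule_iff_isBaseChange (Submonoid.powers t) R' r).mpr hr
  have hpow : ∀ (j : ℕ) (c : N'), t ^ j • c ∈ LinearMap.range φ → c ∈ LinearMap.range φ := by
    intro j
    induction j with
    | zero => intro c hc; simpa using hc
    | succ j ih =>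
      intro c hc
      rw [pow_succ, mul_smul] at hc
      exact ht c (ih _ hc)
  rw [injective_iff_map_eq_zero]
  intro q hq
  induction q using Submodule.Quotient.induction_on with
  | _ c =>
    have hq' : (Submodule.Quotient.mk (r' c) : M' ⧸ LinearMap.range ψ) = 0 := hq
    rw [Submodule.Quotient.mk_eq_zero] at hq' ⊢
    obtain ⟨z, hz⟩ := hq'
    obtain ⟨⟨n, ⟨_, j, rfl⟩⟩, hn⟩ := IsLocalizedModule.surj (Submonoid.powers t) r z
    have hn' : (t ^ j) • z = r n := hn
    have h1 : r' (t ^ j • c) = r' (φ n) := by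
      rw [map_smul, ← hz, ← comm, ← hn', ← algebraMap_smul R' (t ^ j) z, map_smul,
        algebraMap_smul]
    exact hpow j c ⟨n, (hr' h1).symm⟩

end Coker

section General

variable {k : Type u} [Field k]
  {B₀ B₁ B₀₁ : Type u} [CommRing B₀] [CommRing B₁] [CommRing B₀₁]
  [Algebra k B₀] [Algebra k B₁] [Algebra k B₀₁] [Algebra B₀ B₀₁] [Algebra B₁ B₀₁]
  [IsScalarTower k B₀ B₀₁] [IsScalarTower k B₁ B₀₁]
  {x : B₀} {y : B₁} {e : B₁ →ₐ[k] k}
  {A : Type u} [CommRing A] [Algebra k A]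

theorem deg2_xUnit_pow_val (hxy : algebraMap B₀ B₀₁ x * algebraMap B₁ B₀₁ y = 1) (n : ℕ) :
    (((xUnit x y hxy A) ^ (n : ℤ) : (A ⊗[k] B₀₁)ˣ) : A ⊗[k] B₀₁) = xElt k B₀₁ A x ^ n := by
  rw [zpow_natCast, Units.val_pow_eq_pow_val]
  rfl

/-- The Čech differential of the twist `G(n)` is the twisted differential of `ACDefs`. -/
theorem deg2_twistE_cech_apply (hxy : algebraMap B₀ B₀₁ x * algebraMap B₁ B₀₁ y = 1)
    (G : CurveGD k B₀ B₁ B₀₁ A) (n : ℕ) (a : G.N₀) (b : G.N₁) :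
    (twistE x y hxy G (n : ℤ)).cech (a, b) = tcech x n G (a, b) := by
  rw [tcech_apply]
  exact (gdTwist_cech_apply G _ a b).trans (by rw [deg2_xUnit_pow_val])

theorem deg2_mem_H0 (hxy : algebraMap B₀ B₀₁ x * algebraMap B₁ B₀₁ y = 1)
    (G : CurveGD k B₀ B₁ B₀₁ A) (n : ℕ) (s : G.N₀ × G.N₁) (hs : s ∈ sec x n G) :
    s ∈ ((twistE x y hxy G (n : ℤ)).H0 : Submodule A (G.N₀ × G.N₁)) := by
  have h1 : tcech x n G s = 0 := LinearMap.mem_ker.mp hs
  have h2 := deg2_twistE_cech_apply hxy G n s.1 s.2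
  show (twistE x y hxy G (n : ℤ)).cech s = 0
  exact h2.trans h1

/-- `r₁` of the twist. -/
theorem deg2_twistE_r₁ (hxy : algebraMap B₀ B₀₁ x * algebraMap B₁ B₀₁ y = 1)
    (G : CurveGD k B₀ B₁ B₀₁ A) (n : ℕ) (b : G.N₁) :
    (twistE x y hxy G (n : ℤ)).r₁ b = (xElt k B₀₁ A x ^ n • G.r₁ b : G.N₀₁) := by
  show (gdTwist G (xUnit x y hxy A ^ (n : ℤ))).r₁ b = _
  rw [gdTwist_r₁_apply, deg2_xUnit_pow_val]

/-- Multiplication by `y` is onto modulo a section generating `N₁` modulo `y`. -/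
theorem deg2_exists_sub_smul_mem {G : CurveGD k B₀ B₁ B₀₁ A} {b : G.N₁}
    (hb : GenModY y G b) (c : G.N₁) :
    ∃ c' : G.N₁, c - yElt k A y • c' ∈ Submodule.span (A ⊗[k] B₁) {b} := by
  obtain ⟨r, hr⟩ := hb c
  rw [Submodule.ideal_span_singleton_smul, Submodule.mem_smul_pointwise_iff_exists] at hr
  obtain ⟨c', -, hc'⟩ := hr
  refine ⟨c', ?_⟩
  rw [hc', sub_sub_cancel]
  exact Submodule.smul_mem _ _ (Submodule.mem_span_singleton_self b)

end General

section Field

variable {k : Type u} [Field k] [IsAlgClosed k]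
  {B₀ B₁ B₀₁ : Type u} [CommRing B₀] [CommRing B₁] [CommRing B₀₁]
  [Algebra k B₀] [Algebra k B₁] [Algebra k B₀₁] [Algebra B₀ B₀₁] [Algebra B₁ B₀₁]
  [IsScalarTower k B₀ B₀₁] [IsScalarTower k B₁ B₀₁]
  {x : B₀} {y : B₁} {e : B₁ →ₐ[k] k}
  {K : Type u} [Field K] [Algebra k K]

/-- DEG2 (degree = degree of the divisor of a section): a section `s` of `G(nE₀)` which does
not vanish on `E₀` has `dim N₀ / (s₀) = deg G + n d`. -/
theorem degree_eq_of_section (hC : IsCurveChart k B₀ B₁ B₀₁ x y e)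
    (G : CurveGD k B₀ B₁ B₀₁ K) (n : ℕ) (s : G.N₀ × G.N₁) (hs : s ∈ sec x n G)
    (hgen : GenModY y G s.2) :
    Module.Finite K (G.N₀ ⧸ Submodule.span (K ⊗[k] B₀) {s.1}) ∧
      G.degree = (Module.finrank K (G.N₀ ⧸ Submodule.span (K ⊗[k] B₀) {s.1}) : ℤ) -
        (n * Module.finrank k (B₁ ⧸ Ideal.span {y}) : ℕ) := by
  have hxy := hC.mul_eq_one
  haveI : IsLocalization.Away (yElt k K y) (K ⊗[k] B₀₁) := H565.chart_away₁ hC K
  have hs' := deg2_mem_H0 hxy G n s hs
  -- the morphism `unit → G(n)` defined by `s`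
  let f : GDHom (GlueDatum.unit K (K ⊗[k] B₀) (K ⊗[k] B₁) (K ⊗[k] B₀₁))
      (twistE x y hxy G (n : ℤ)) := GDHom.ofSection (twistE x y hxy G (n : ℤ)) ⟨s, hs'⟩
  have hf₀ : ∀ a : K ⊗[k] B₀, f.f₀ a = (a • s.1 : G.N₀) := fun a => rfl
  have hf₁ : ∀ a : K ⊗[k] B₁, f.f₁ a = (a • s.2 : G.N₁) := fun a => rfl
  have hinj : f.Injective := by
    constructor
    · rw [injective_iff_map_eq_zero]
      intro a ha
      exact H447.sec_fst_smul_eq_zero hC hs hgen a ((hf₀ a).symm.trans ha)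
    · rw [injective_iff_map_eq_zero]
      intro a ha
      exact H447.sec_snd_smul_eq_zero hC hs hgen a ((hf₁ a).symm.trans ha)
  obtain ⟨h₀, h₁⟩ := H565.D.finite_coker_of_injective hC f hinj
  have heu := H565.D.euler_eq_of_injective hC f hinj h₀ h₁
  have hdeg := degree_twistE hC G (n : ℤ)
  have e₀ : LinearMap.range f.f₀ = Submodule.span (K ⊗[k] B₀) {s.1} :=
    (LinearMap.span_singleton_eq_range (K ⊗[k] B₀) G.N₀ s.1).symm
  have e₁ : LinearMap.range f.f₁ = Submodule.span (K ⊗[k] B₁) {s.2} :=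
    (LinearMap.span_singleton_eq_range (K ⊗[k] B₁) G.N₁ s.2).symm
  -- `Q₁ ≃ Q₀₁`
  have hcancel : ∀ c : G.N₁, yElt k K y • c ∈ LinearMap.range f.f₁ →
      c ∈ LinearMap.range f.f₁ := by
    intro c hc
    rw [e₁] at hc ⊢
    haveI : Module.Finite K (G.N₁ ⧸ Submodule.span (K ⊗[k] B₁) {s.2}) := by
      rw [← e₁]; exact h₁
    exact deg2_smul_mem_cancel (K := K) (Submodule.span (K ⊗[k] B₁) {s.2}) (yElt k K y)
      (deg2_exists_sub_smul_mem hgen) c hc
  have hr₁inj : Function.Injective (twistE x y hxy G (n : ℤ)).r₁ :=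
    H447.r₁_injective hC (twistE x y hxy G (n : ℤ))
  have hQinj := deg2_cokerLoc_injective (K := K)
    (GlueDatum.unit K (K ⊗[k] B₀) (K ⊗[k] B₁) (K ⊗[k] B₀₁)).r₁
    (twistE x y hxy G (n : ℤ)).r₁ f.f₁ f.f₀₁ f.comm₁ (yElt k K y)
    (GlueDatum.unit K (K ⊗[k] B₀) (K ⊗[k] B₁) (K ⊗[k] B₀₁)).isBaseChange₁ hr₁inj hcancel
  haveI := h₁
  have hQsurj := H71.cokerLoc_surjective (K := K)
    (GlueDatum.unit K (K ⊗[k] B₀) (K ⊗[k] B₁) (K ⊗[k] B₀₁)).r₁
    (twistE x y hxy G (n : ℤ)).r₁ (twistE x y hxy G (n : ℤ)).isBaseChange₁ f.f₁ f.f₀₁ f.comm₁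
    (yElt k K y)
  have hQ : Module.finrank K ((twistE x y hxy G (n : ℤ)).N₁ ⧸ LinearMap.range f.f₁) =
      Module.finrank K ((twistE x y hxy G (n : ℤ)).N₀₁ ⧸ LinearMap.range f.f₀₁) :=
    (LinearEquiv.ofBijective _ ⟨hQinj, hQsurj⟩).finrank_eq
  refine ⟨by rw [← e₀]; exact h₀, ?_⟩
  have hq₀ : Module.finrank K ((twistE x y hxy G (n : ℤ)).N₀ ⧸ LinearMap.range f.f₀) =
      Module.finrank K (G.N₀ ⧸ Submodule.span (K ⊗[k] B₀) {s.1}) := by
    rw [e₀]
    rfl
  have hd : (twistE x y hxy G (n : ℤ)).degree = (twistE x y hxy G (n : ℤ)).euler -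
      (GlueDatum.unit K (K ⊗[k] B₀) (K ⊗[k] B₁) (K ⊗[k] B₀₁)).euler := rfl
  have hc : chartDeg k y = Module.finrank k (B₁ ⧸ Ideal.span {y}) := rfl
  rw [hd, heu, hQ, hq₀, hc] at hdeg
  push_cast
  linarith

end Field

end Fermat.Agent.S25.H130
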