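import Fermat.Agent.S25.H130.Basic

/-!
# S25 / AS4 (helper130): the chart axioms `inj`, `locus` for affine schemes `Spec A`
with an arbitrary structure morphism `s : Spec A ⟶ Spec k` (no `Algebra` instance needed).
-/

set_option autoImplicit false
set_option linter.style.haveILetI false
universe u
open CategoryTheory CategoryTheory.Limits AlgebraicGeometry AlgebraicGeometry.RelPicard
  NeronModelInfra GoodReductionJacobian

namespace Fermat.Agent.S25.H130

noncomputable section

variable {k : Type u} [Field k] {C : Scheme.{u}} {c : C ⟶ Spec (CommRingCat.of k)}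
  {ε : SchemeHomOver (𝟙 (Spec (CommRingCat.of k))) c}

/-- Every morphism over `k` between spectra of `k`-algebras is `specHomOver` of an algebra map. -/
theorem exists_specHomOver_eq {A B : Type u} [CommRing A] [CommRing B] [Algebra k A] [Algebra k B]
    (g : SchemeHomOver (specStr k A) (specStr k B)) :
    ∃ φ : B →ₐ[k] A, g = specHomOver k φ := by
  have hg := g.2
  obtain ⟨ρ, hρ⟩ : ∃ ρ : CommRingCat.of B ⟶ CommRingCat.of A, g.1 = Spec.map ρ :=
    ⟨Spec.preimage g.1, (Spec.map_preimage g.1).symm⟩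
  have hcomm : CommRingCat.ofHom (algebraMap k B) ≫ ρ = CommRingCat.ofHom (algebraMap k A) := by
    apply Spec.map_injective
    rw [Spec.map_comp, ← hρ]
    exact hg
  refine ⟨{ ρ.hom with commutes' := fun x => ?_ }, Subtype.ext ?_⟩
  · have := congrArg (fun f => f.hom x) hcomm
    simpa using this
  · rw [hρ]
    rfl

/-- `ChartFamily.inj` for `Spec A` with an arbitrary structure morphism. -/
theorem inj_spec (ch : ChartFamily c ε) (i : ch.ι) (A : CommRingCat.{u})
    (s : Spec A ⟶ Spec (CommRingCat.of k))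
    (g g' : SchemeHomOver s (specStr k (ch.R i)))
    (h : RIso ((ch.bundle i).pullbackAlong g) ((ch.bundle i).pullbackAlong g')) : g = g' := by
  obtain ⟨r, rfl⟩ : ∃ r : CommRingCat.of k ⟶ A, s = Spec.map r :=
    ⟨Spec.preimage s, (Spec.map_preimage s).symm⟩
  letI : Algebra k A := r.hom.toAlgebra
  obtain ⟨φ, hφ⟩ := exists_specHomOver_eq (k := k) (A := A) (B := ch.R i) g
  obtain ⟨φ', hφ'⟩ := exists_specHomOver_eq (k := k) (A := A) (B := ch.R i) g'
  rw [hφ, hφ'] at h
  have := ch.inj i A φ φ' h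
  rw [hφ, hφ', this]

/-- `ChartFamily.locus` for `Spec A` with an arbitrary structure morphism. -/
theorem locus_spec (ch : ChartFamily c ε) (A : CommRingCat.{u})
    (s : Spec A ⟶ Spec (CommRingCat.of k)) (M : RigidifiedLineBundle c ε s)
    (hM : FibrewiseAlgEquivZero M) :
    ∃ I : ch.ι → Ideal A, (⨆ i, I i) = ⊤ ∧
      ∀ (i : ch.ι) (A' : CommRingCat.{u}) (s' : Spec A' ⟶ Spec (CommRingCat.of k))
        (g : SchemeHomOver s' s),
        (∃ φ : SchemeHomOver s' (specStr k (ch.R i)),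
          RIso ((ch.bundle i).pullbackAlong φ) (M.pullbackAlong g)) ↔
        (I i).map (Spec.preimage g.1).hom = ⊤ := by
  obtain ⟨r, rfl⟩ : ∃ r : CommRingCat.of k ⟶ A, s = Spec.map r :=
    ⟨Spec.preimage s, (Spec.map_preimage s).symm⟩
  letI : Algebra k A := r.hom.toAlgebra
  obtain ⟨I, hI, hloc⟩ := ch.locus A M hM
  refine ⟨I, hI, fun i A' s' g => ?_⟩
  obtain ⟨ψ, hψ⟩ : ∃ ψ : A ⟶ A', g.1 = Spec.map ψ :=
    ⟨Spec.preimage g.1, (Spec.map_preimage g.1).symm⟩
  obtain rfl : s' = Spec.map (r ≫ ψ) := by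
    rw [← g.2, hψ, Spec.map_comp]
  letI : Algebra k A' := (r ≫ ψ).hom.toAlgebra
  let ψ' : A →ₐ[k] A' := { ψ.hom with commutes' := fun x => rfl }
  have hg : g = specHomOver k ψ' := Subtype.ext hψ
  have hpre : (Spec.preimage g.1).hom = ψ'.toRingHom := by
    rw [hψ, Spec.preimage_map]
  rw [hpre, ← hloc i A' ψ', hg]
  constructor
  · rintro ⟨φ, hφ⟩
    obtain ⟨φ', rfl⟩ := exists_specHomOver_eq (k := k) (A := A') (B := ch.R i) φ
    exact ⟨φ', hφ⟩
  · rintro ⟨φ, hφ⟩
    exact ⟨specHomOver k φ, hφ⟩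

end

end Fermat.Agent.S25.H130
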