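import Fermat.Agent.S25.Defs

/-!
# S25 / AS4 (helper130): basic calculus of rigidified line bundles up to isomorphism

All comparisons are made through `RigidifiedLineBundle.pullbackAlong`; no casts along
equalities of structure morphisms are ever used.
-/

set_option autoImplicit false
universe u
open CategoryTheory CategoryTheory.Limits AlgebraicGeometry AlgebraicGeometry.RelPicard
  NeronModelInfra GoodReductionJacobian

namespace Fermat.Agent.S25.H130

noncomputable section

variable {k : Type u} [Field k] {C : Scheme.{u}} {c : C ⟶ Spec (CommRingCat.of k)}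
  {ε : SchemeHomOver (𝟙 (Spec (CommRingCat.of k))) c}

section RIso

variable {T : Scheme.{u}} {t : T ⟶ Spec (CommRingCat.of k)}

theorem rIso_refl (M : RigidifiedLineBundle c ε t) : RIso M M := ⟨Iso.refl _⟩

theorem rIso_symm {M M' : RigidifiedLineBundle c ε t} (h : RIso M M') : RIso M' M :=
  ⟨h.some.symm⟩

theorem rIso_trans {M M' M'' : RigidifiedLineBundle c ε t} (h : RIso M M') (h' : RIso M' M'') :
    RIso M M'' :=
  ⟨h.some ≪≫ h'.some⟩

end RIso

section Pullback

variable {T T' T'' : Scheme.{u}} {t : T ⟶ Spec (CommRingCat.of k)}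
  {t' : T' ⟶ Spec (CommRingCat.of k)} {t'' : T'' ⟶ Spec (CommRingCat.of k)}

/-- Pullback respects isomorphism. -/
theorem rIso_pullbackAlong {M M' : RigidifiedLineBundle c ε t} (h : RIso M M')
    (ψ : SchemeHomOver t' t) : RIso (M.pullbackAlong ψ) (M'.pullbackAlong ψ) :=
  RigidifiedLineBundle.pullbackAlong_congr ψ h

/-- Pullback along a composite. -/
theorem rIso_pullbackAlong_comp (M : RigidifiedLineBundle c ε t) (ψ : SchemeHomOver t' t)
    (φ : SchemeHomOver t'' t') :
    RIso ((M.pullbackAlong ψ).pullbackAlong φ) (M.pullbackAlong (postComp ψ φ)) :=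
  ⟨(Scheme.Modules.pullbackComp _ _).app M.L ≪≫
    (Scheme.Modules.pullbackCongr (baseChangeSnd_comp c ψ φ)).app M.L⟩

/-- Pullback along the identity. -/
theorem rIso_pullbackAlong_id (M : RigidifiedLineBundle c ε t) (h : 𝟙 T ≫ t = t) :
    RIso (M.pullbackAlong (⟨𝟙 T, h⟩ : SchemeHomOver t t)) M :=
  ⟨(Scheme.Modules.pullbackCongr (baseChangeSnd_id c t)).app M.L ≪≫
    (Scheme.Modules.pullbackId (pullback c t)).app M.L⟩

/-- Pullback along morphisms with the same underlying morphism of schemes. -/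
theorem rIso_pullbackAlong_of_eq (M : RigidifiedLineBundle c ε t) {ψ ψ' : SchemeHomOver t' t}
    (h : ψ.1 = ψ'.1) : RIso (M.pullbackAlong ψ) (M.pullbackAlong ψ') := by
  obtain rfl : ψ = ψ' := Subtype.ext h
  exact rIso_refl _

/-- Two-step pullbacks along composites with the same underlying morphism agree. -/
theorem rIso_pullbackAlong_pullbackAlong {T₁ T₂ : Scheme.{u}}
    {t₁ : T₁ ⟶ Spec (CommRingCat.of k)} {t₂ : T₂ ⟶ Spec (CommRingCat.of k)}
    (M : RigidifiedLineBundle c ε t)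
    (ψ₁ : SchemeHomOver t₁ t) (φ₁ : SchemeHomOver t'' t₁)
    (ψ₂ : SchemeHomOver t₂ t) (φ₂ : SchemeHomOver t'' t₂)
    (h : φ₁.1 ≫ ψ₁.1 = φ₂.1 ≫ ψ₂.1) :
    RIso ((M.pullbackAlong ψ₁).pullbackAlong φ₁) ((M.pullbackAlong ψ₂).pullbackAlong φ₂) :=
  rIso_trans (rIso_pullbackAlong_comp M ψ₁ φ₁)
    (rIso_trans (rIso_pullbackAlong_of_eq M (ψ := postComp ψ₁ φ₁) (ψ' := postComp ψ₂ φ₂) h)
      (rIso_symm (rIso_pullbackAlong_comp M ψ₂ φ₂)))

/-- One-step versus two-step pullback. -/
theorem rIso_pullbackAlong_of_comp_eq {T₁ : Scheme.{u}}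
    {t₁ : T₁ ⟶ Spec (CommRingCat.of k)}
    (M : RigidifiedLineBundle c ε t)
    (ψ₁ : SchemeHomOver t₁ t) (φ₁ : SchemeHomOver t'' t₁)
    (χ : SchemeHomOver t'' t)
    (h : φ₁.1 ≫ ψ₁.1 = χ.1) :
    RIso ((M.pullbackAlong ψ₁).pullbackAlong φ₁) (M.pullbackAlong χ) :=
  rIso_trans (rIso_pullbackAlong_comp M ψ₁ φ₁)
    (rIso_pullbackAlong_of_eq M (ψ := postComp ψ₁ φ₁) (ψ' := χ) h)

/-- Degree zero is invariant under isomorphism. -/
theorem deg0_of_rIso {M M' : RigidifiedLineBundle c ε t} (h : RIso M M')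
    (hM : FibrewiseAlgEquivZero M) : FibrewiseAlgEquivZero M' :=
  hM.congr h

/-- Degree zero is stable under pullback. -/
theorem deg0_pullbackAlong {M : RigidifiedLineBundle c ε t} (hM : FibrewiseAlgEquivZero M)
    (ψ : SchemeHomOver t' t) : FibrewiseAlgEquivZero (M.pullbackAlong ψ) :=
  hM.pullback ψ

end Pullback

end

end Fermat.Agent.S25.H130
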