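import Fermat.Agent.S25.H130.SheafPB

/-!
# S25 / AS4 (helper130): the chart locus of a rigidified line bundle over an arbitrary base
-/

set_option autoImplicit false
universe u
open CategoryTheory CategoryTheory.Limits AlgebraicGeometry AlgebraicGeometry.RelPicard
  NeronModelInfra GoodReductionJacobian TopologicalSpace

namespace Fermat.Agent.S25.H130

noncomputable section

variable {k : Type u} [Field k] {C : Scheme.{u}} {c : C ⟶ Spec (CommRingCat.of k)}
  {ε : SchemeHomOver (𝟙 (Spec (CommRingCat.of k))) c}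

variable {T T' : Scheme.{u}} {t : T ⟶ Spec (CommRingCat.of k)}
  {t' : T' ⟶ Spec (CommRingCat.of k)}

/-- The `i`-th chart, as a scheme. -/
abbrev chX (ch : ChartFamily c ε) (i : ch.ι) : Scheme.{u} := Spec (CommRingCat.of (ch.R i))

/-- The structure morphism of the `i`-th chart. -/
abbrev chStr (ch : ChartFamily c ε) (i : ch.ι) : chX ch i ⟶ Spec (CommRingCat.of k) :=
  specStr k (ch.R i)

/-- `N` lies in the `i`-th chart: it is a pullback of the universal bundle of the chart. -/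
def InChart (ch : ChartFamily c ε) (i : ch.ι) (N : RigidifiedLineBundle c ε t) : Prop :=
  ∃ φ : T ⟶ chX ch i, IsPB (ch.bundle i) φ N

theorem InChart.of_rIso {ch : ChartFamily c ε} {i : ch.ι} {N N' : RigidifiedLineBundle c ε t}
    (h : InChart ch i N) (e : RIso N N') : InChart ch i N' := by
  obtain ⟨φ, hφ⟩ := h
  exact ⟨φ, hφ.of_rIso_right e⟩

theorem InChart.pullback {ch : ChartFamily c ε} {i : ch.ι} {N : RigidifiedLineBundle c ε t}
    (h : InChart ch i N) {f : T' ⟶ T} {N' : RigidifiedLineBundle c ε t'} (hf : IsPB N f N') :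
    InChart ch i N' := by
  obtain ⟨φ, hφ⟩ := h
  exact ⟨f ≫ φ, hφ.comp hf⟩

theorem inChart_bundle (ch : ChartFamily c ε) (i : ch.ι) : InChart ch i (ch.bundle i) :=
  ⟨𝟙 _, isPB_id _⟩

/-- Being in a chart is Zariski-local on the base. -/
theorem InChart.of_isOpenCover (hSep : Stmt.SheafSep c ε) (ch : ChartFamily c ε) (i : ch.ι)
    (N : RigidifiedLineBundle c ε t) {ι : Type u} (U : ι → T.Opens) (hU : (⨆ a, U a) = ⊤)
    (h : ∀ a, ∃ (s : (U a).toScheme ⟶ Spec (CommRingCat.of k))
      (L : RigidifiedLineBundle c ε s), IsPB N (U a).ι L ∧ InChart ch i L) :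
    InChart ch i N := by
  choose s L hL φ hφ using h
  let 𝒰 : T.OpenCover := T.openCoverOfIsOpenCover U hU
  have compat : ∀ a b, pullback.fst (𝒰.f a) (𝒰.f b) ≫ φ a = pullback.snd (𝒰.f a) (𝒰.f b) ≫ φ b := by
    intro a b
    have hZ := isPB_mk N (pullback.fst (𝒰.f a) (𝒰.f b) ≫ (U a).ι) rfl
    have h1 : IsPB (L a) (pullback.fst (𝒰.f a) (𝒰.f b)) _ := (hL a).of_comp hZ
    have hcond : pullback.fst (𝒰.f a) (𝒰.f b) ≫ (U a).ι =
        pullback.snd (𝒰.f a) (𝒰.f b) ≫ (U b).ι := pullback.condition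
    have h2 : IsPB (L b) (pullback.snd (𝒰.f a) (𝒰.f b)) _ := (hL b).of_comp (hZ.of_eq hcond)
    exact inj_scheme ch i _ ((hφ a).comp h1) ((hφ b).comp h2)
  let Φ : T ⟶ chX ch i := 𝒰.glueMorphisms φ compat
  have hΦ : ∀ a, (U a).ι ≫ Φ = φ a := fun a => 𝒰.ι_glueMorphisms φ compat a
  have hw : Φ ≫ chStr ch i = t := by
    refine Scheme.Cover.hom_ext 𝒰 _ _ fun a => ?_
    show (U a).ι ≫ Φ ≫ chStr ch i = (U a).ι ≫ t
    rw [← Category.assoc, hΦ, (hφ a).w, (hL a).w]
  refine ⟨Φ, hw, ?_⟩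
  refine sheafSep_isPB hSep U hU _ _ fun a => ⟨s a, L a, ?_, hL a⟩
  exact (isPB_mk (ch.bundle i) Φ hw).of_comp ((hφ a).of_eq (hΦ a).symm)

/-- The locus of the base over which `N` lies in the `i`-th chart. -/
def chartLocus (ch : ChartFamily c ε) (i : ch.ι) (N : RigidifiedLineBundle c ε t) : T.Opens :=
  sSup {V : T.Opens | InChart ch i (restrictOpen N V)}

theorem le_chartLocus {ch : ChartFamily c ε} {i : ch.ι} {N : RigidifiedLineBundle c ε t}
    {V : T.Opens} (h : InChart ch i (restrictOpen N V)) : V ≤ chartLocus ch i N :=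
  le_sSup h

/-- The range of an open immersion along which `N` pulls back into the chart lies in the chart
locus. -/
theorem opensRange_le_chartLocus {ch : ChartFamily c ε} {i : ch.ι}
    {N : RigidifiedLineBundle c ε t} (j : T' ⟶ T) [IsOpenImmersion j]
    {L : RigidifiedLineBundle c ε t'} (hL : IsPB N j L) (h : InChart ch i L) :
    j.opensRange ≤ chartLocus ch i N := by
  refine le_chartLocus (h.pullback (f := j.isoOpensRange.inv) ?_)
  refine hL.of_comp ((isPB_restrictOpen N j.opensRange).of_eq ?_)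
  exact (Scheme.Hom.isoOpensRange_inv_comp j).symm

/-- Over its chart locus, `N` lies in the chart. -/
theorem inChart_chartLocus (hSep : Stmt.SheafSep c ε) (ch : ChartFamily c ε) (i : ch.ι)
    (N : RigidifiedLineBundle c ε t) :
    InChart ch i (restrictOpen N (chartLocus ch i N)) := by
  let W := chartLocus ch i N
  let S := {V : T.Opens | InChart ch i (restrictOpen N V)}
  refine InChart.of_isOpenCover hSep ch i _ (fun V : S => W.ι ⁻¹ᵁ V.1) ?_ fun V => ?_
  · rw [eq_top_iff]
    rintro x -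
    have hx : (W.ι x : T) ∈ sSup S := x.2
    rw [Opens.mem_sSup] at hx
    obtain ⟨V, hV, hxV⟩ := hx
    exact Opens.mem_iSup.2 ⟨⟨V, hV⟩, hxV⟩
  · have hrange : Set.range ((W.ι ⁻¹ᵁ V.1).ι ≫ W.ι) ⊆ Set.range V.1.ι := by
      rintro _ ⟨y, rfl⟩
      have : (W.ι ((W.ι ⁻¹ᵁ V.1).ι y) : T) ∈ V.1 := y.2
      simpa using this
    let l := IsOpenImmersion.lift V.1.ι ((W.ι ⁻¹ᵁ V.1).ι ≫ W.ι) hrange
    have hl : l ≫ V.1.ι = (W.ι ⁻¹ᵁ V.1).ι ≫ W.ι := IsOpenImmersion.lift_fac _ _ _
    have h1 := isPB_mk (restrictOpen N V.1) l rfl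
    refine ⟨_, _, ?_, V.2.pullback h1⟩
    exact (isPB_restrictOpen N W).of_comp (((isPB_restrictOpen N V.1).comp h1).of_eq hl)

/-- If `f` maps into the chart locus of `N`, then the pullback of `N` along `f` lies in the
chart. -/
theorem inChart_of_range_subset (hSep : Stmt.SheafSep c ε) (ch : ChartFamily c ε) (i : ch.ι)
    {N : RigidifiedLineBundle c ε t} {f : T' ⟶ T} {N' : RigidifiedLineBundle c ε t'}
    (hf : IsPB N f N') (h : ∀ x, f x ∈ chartLocus ch i N) : InChart ch i N' := by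
  have hrange : Set.range f ⊆ Set.range (chartLocus ch i N).ι := by
    rintro _ ⟨y, rfl⟩
    simpa using h y
  refine (inChart_chartLocus hSep ch i N).pullback
    (f := IsOpenImmersion.lift (chartLocus ch i N).ι f hrange) ?_
  exact (isPB_restrictOpen N _).of_comp (hf.of_eq (IsOpenImmersion.lift_fac _ _ _).symm)

end

end Fermat.Agent.S25.H130
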