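/-
S25, block DEGREE, GDC-type leaves (helper130): exact statements of `H10/DegreeSkel.lean`
(`isIso_of_bijective`, `bijective_of_charts`, `gdTwist_one`, `gdTwist_mul`, `gdTwist_isIso`,
`gdTwist_isIso_of_unit₁`, `euler_eq_of_isIso`, `degree_eq_of_isIso`, `unit_isBC`, `twistE_isBC`).
-/
import Fermat.Agent.S25.H10.DegreeDefs

set_option autoImplicit false
set_option linter.style.haveILetI false
set_option linter.unusedSectionVars false

universe u

open scoped TensorProduct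

namespace Fermat.Agent.S25.H130

open Fermat.Agent.S25 Fermat.Agent.S25.H10

noncomputable section

/-! ## General gluing data -/

section General

variable {A R₀ R₁ R₀₁ : Type u} [CommRing A] [CommRing R₀] [CommRing R₁]
    [CommRing R₀₁] [Algebra A R₀] [Algebra A R₁] [Algebra A R₀₁] [Algebra R₀ R₀₁]
    [Algebra R₁ R₀₁] [IsScalarTower A R₀ R₀₁] [IsScalarTower A R₁ R₀₁]

/-- G-a. A bijective morphism is an isomorphism. -/
theorem isIso_of_bijective {G G' : GlueDatum A R₀ R₁ R₀₁} (f : GDHom G G')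
    (hf : f.Bijective) : G.IsIso G' :=
  ⟨{ e₀ := LinearEquiv.ofBijective f.f₀ hf.1
     e₁ := LinearEquiv.ofBijective f.f₁ hf.2.1
     e₀₁ := LinearEquiv.ofBijective f.f₀₁ hf.2.2
     comm₀ := f.comm₀
     comm₁ := f.comm₁ }⟩

/-- G-b. Bijectivity on the two charts suffices. -/
theorem bijective_of_charts {G G' : GlueDatum A R₀ R₁ R₀₁} (f : GDHom G G')
    (h₀ : Function.Bijective f.f₀) (h₁ : Function.Bijective f.f₁) : f.Bijective := by
  refine ⟨h₀, h₁, ?_⟩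
  let e₀ : G.N₀ ≃ₗ[R₀] G'.N₀ := LinearEquiv.ofBijective f.f₀ h₀
  let g : G'.N₀₁ →ₗ[R₀₁] G.N₀₁ := G'.isBaseChange₀.lift (G.r₀.comp e₀.symm.toLinearMap)
  have hg : ∀ s, g (G'.r₀ s) = G.r₀ (e₀.symm s) := fun s =>
    G'.isBaseChange₀.lift_eq _ s
  have h1 : g.comp f.f₀₁ = LinearMap.id := by
    refine G.isBaseChange₀.algHom_ext _ _ fun s => ?_
    rw [LinearMap.comp_apply, f.comm₀, hg, LinearMap.id_apply]
    congr 1
    exact e₀.symm_apply_apply s
  have h2 : f.f₀₁.comp g = LinearMap.id := by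
    refine G'.isBaseChange₀.algHom_ext _ _ fun s => ?_
    rw [LinearMap.comp_apply, hg, f.comm₀, LinearMap.id_apply]
    congr 1
    exact e₀.apply_symm_apply s
  refine ⟨fun a b hab => ?_, fun z => ⟨g z, ?_⟩⟩
  · have := congrArg g hab
    rwa [← LinearMap.comp_apply, ← LinearMap.comp_apply, h1] at this
  · rw [← LinearMap.comp_apply, h2, LinearMap.id_apply]

/-- G-c. Twisting by `1` changes nothing. -/
theorem gdTwist_one (G : GlueDatum A R₀ R₁ R₀₁) : (gdTwist G 1).IsIso G :=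
  ⟨{ e₀ := LinearEquiv.refl R₀ G.N₀
     e₁ := LinearEquiv.refl R₁ G.N₁
     e₀₁ := LinearEquiv.refl R₀₁ G.N₀₁
     comm₀ := fun _ => rfl
     comm₁ := fun (s : G.N₁) => by
      show (((1 : R₀₁ˣ) : R₀₁) • G.r₁ s : G.N₀₁) = G.r₁ s
      rw [Units.val_one, one_smul] }⟩

/-- G-c'. Twists compose. -/
theorem gdTwist_mul (G : GlueDatum A R₀ R₁ R₀₁) (u v : R₀₁ˣ) :
    (gdTwist (gdTwist G u) v).IsIso (gdTwist G (u * v)) :=
  ⟨{ e₀ := LinearEquiv.refl R₀ G.N₀
     e₁ := LinearEquiv.refl R₁ G.N₁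
     e₀₁ := LinearEquiv.refl R₀₁ G.N₀₁
     comm₀ := fun _ => rfl
     comm₁ := fun (s : G.N₁) => by
      show ((v : R₀₁) • ((u : R₀₁) • G.r₁ s) : G.N₀₁) = ((u * v : R₀₁ˣ) : R₀₁) • G.r₁ s
      rw [smul_smul, Units.val_mul, mul_comm] }⟩

/-- G-d. Twisting is functorial for isomorphisms. -/
theorem gdTwist_isIso {G G' : GlueDatum A R₀ R₁ R₀₁} (h : G.IsIso G') (u : R₀₁ˣ) :
    (gdTwist G u).IsIso (gdTwist G' u) := by
  obtain ⟨e⟩ := h
  exact
    ⟨{ e₀ := e.e₀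
       e₁ := e.e₁
       e₀₁ := e.e₀₁
       comm₀ := e.comm₀
       comm₁ := fun (s : G.N₁) => by
        show e.e₀₁ ((u : R₀₁) • G.r₁ s : G.N₀₁) = ((u : R₀₁) • G'.r₁ (e.e₁ s) : G'.N₀₁)
        rw [map_smul, e.comm₁] }⟩

/-- Multiplication by a unit `v` of `R₁` on an `R₁`-module, as a linear equivalence. -/
def unitSMulEquiv₁ (v : R₁ˣ) (N : Type u) [AddCommGroup N] [Module R₁ N] : N ≃ₗ[R₁] N where
  toFun n := (v : R₁) • n
  invFun n := ((v⁻¹ : R₁ˣ) : R₁) • n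
  map_add' := smul_add _
  map_smul' r n := by simp [smul_smul, mul_comm]
  left_inv n := by simp [smul_smul]
  right_inv n := by simp [smul_smul]

/-- G-e. A unit coming from `R₁` does not change the isomorphism class. -/
theorem gdTwist_isIso_of_unit₁ (G : GlueDatum A R₀ R₁ R₀₁) (v : R₁ˣ) (u : R₀₁ˣ)
    (huv : (u : R₀₁) = algebraMap R₁ R₀₁ v) : (gdTwist G u).IsIso G :=
  ⟨{ e₀ := LinearEquiv.refl R₀ G.N₀
     e₁ := unitSMulEquiv₁ v G.N₁
     e₀₁ := LinearEquiv.refl R₀₁ G.N₀₁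
     comm₀ := fun _ => rfl
     comm₁ := fun (s : G.N₁) => by
      show ((u : R₀₁) • G.r₁ s : G.N₀₁) = G.r₁ ((v : R₁) • s)
      rw [map_smul, huv, algebraMap_smul] }⟩

end General

section Field

variable {K R₀ R₁ R₀₁ : Type u} [Field K] [CommRing R₀] [CommRing R₁]
    [CommRing R₀₁] [Algebra K R₀] [Algebra K R₁] [Algebra K R₀₁] [Algebra R₀ R₀₁]
    [Algebra R₁ R₀₁] [IsScalarTower K R₀ R₀₁] [IsScalarTower K R₁ R₀₁]

/-- The `K`-linear equivalence of Čech `0`-cochains induced by an isomorphism. -/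
def isoCochain {G G' : GlueDatum K R₀ R₁ R₀₁} (e : GlueDatum.Iso G G') :
    (G.N₀ × G.N₁) ≃ₗ[K] (G'.N₀ × G'.N₁) :=
  (e.e₀.restrictScalars K).prodCongr (e.e₁.restrictScalars K)

theorem cech_isoCochain {G G' : GlueDatum K R₀ R₁ R₀₁} (e : GlueDatum.Iso G G')
    (s : G.N₀ × G.N₁) : G'.cech (isoCochain e s) = e.e₀₁ (G.cech s) := by
  obtain ⟨a, b⟩ := s
  simp [GlueDatum.cech, isoCochain, e.comm₀, e.comm₁]

theorem cech_isoCochain_symm {G G' : GlueDatum K R₀ R₁ R₀₁} (e : GlueDatum.Iso G G')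
    (s : G'.N₀ × G'.N₁) : G.cech ((isoCochain e).symm s) = e.e₀₁.symm (G'.cech s) := by
  apply e.e₀₁.injective
  rw [← cech_isoCochain, LinearEquiv.apply_symm_apply, LinearEquiv.apply_symm_apply]

theorem finrank_H0_eq_of_iso {G G' : GlueDatum K R₀ R₁ R₀₁} (e : GlueDatum.Iso G G') :
    Module.finrank K G.H0 = Module.finrank K G'.H0 := by
  refine LinearEquiv.finrank_eq (LinearEquiv.ofSubmodules (isoCochain e) G.H0 G'.H0 ?_)
  ext s
  simp only [Submodule.mem_map, LinearMap.mem_ker, LinearEquiv.coe_coe]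
  constructor
  · rintro ⟨s', hs', rfl⟩
    rw [cech_isoCochain, hs', map_zero]
  · intro hs
    refine ⟨(isoCochain e).symm s, ?_, LinearEquiv.apply_symm_apply _ _⟩
    rw [cech_isoCochain_symm, hs, map_zero]

theorem finrank_H1_eq_of_iso {G G' : GlueDatum K R₀ R₁ R₀₁} (e : GlueDatum.Iso G G') :
    Module.finrank K G.H1 = Module.finrank K G'.H1 := by
  refine LinearEquiv.finrank_eq
    (Submodule.Quotient.equiv (LinearMap.range G.cech) (LinearMap.range G'.cech)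
      (e.e₀₁.restrictScalars K) ?_)
  ext z
  simp only [Submodule.mem_map, LinearMap.mem_range, LinearEquiv.coe_coe]
  constructor
  · rintro ⟨_, ⟨s, rfl⟩, rfl⟩
    exact ⟨isoCochain e s, cech_isoCochain e s⟩
  · rintro ⟨s, rfl⟩
    refine ⟨G.cech ((isoCochain e).symm s), ⟨_, rfl⟩, ?_⟩
    rw [cech_isoCochain_symm]
    exact e.e₀₁.apply_symm_apply _

/-- D2-a. -/
theorem euler_eq_of_isIso {G G' : GlueDatum K R₀ R₁ R₀₁} (h : G.IsIso G') :
    G.euler = G'.euler := by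
  obtain ⟨e⟩ := h
  unfold GlueDatum.euler
  rw [finrank_H0_eq_of_iso e, finrank_H1_eq_of_iso e]

/-- D2-a'. -/
theorem degree_eq_of_isIso {G G' : GlueDatum K R₀ R₁ R₀₁} (h : G.IsIso G') :
    G.degree = G'.degree := by
  unfold GlueDatum.degree
  rw [euler_eq_of_isIso h]

end Field

/-! ## Curve charts -/

variable {k : Type u} [Field k] {B₀ B₁ B₀₁ : Type u} [CommRing B₀] [CommRing B₁] [CommRing B₀₁]
  [Algebra k B₀] [Algebra k B₁] [Algebra k B₀₁] [Algebra B₀ B₀₁] [Algebra B₁ B₀₁]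
  [IsScalarTower k B₀ B₀₁] [IsScalarTower k B₁ B₀₁]
  {x : B₀} {y : B₁} {e : B₁ →ₐ[k] k}

/-- A ring homomorphism, as a semilinear map over itself. -/
def ringHomSemilinear {R R' : Type u} [CommRing R] [CommRing R'] (ρ : R →+* R') :
    R →ₛₗ[ρ] R' where
  toFun := ρ
  map_add' := map_add ρ
  map_smul' r s := by simp

theorem ringHomSemilinear_isBC {R R' : Type u} [CommRing R] [CommRing R'] (ρ : R →+* R') :
    IsSemilinearBaseChange ρ (ringHomSemilinear ρ) := by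
  letI : Algebra R R' := ρ.toAlgebra
  exact IsBaseChange.linearMap R R'

theorem tensorMapLeft_tensorMapRight {A A' : Type u} [CommRing A] [Algebra k A] [CommRing A']
    [Algebra k A'] (φ : A →ₐ[k] A') (B B' : Type u) [CommRing B] [CommRing B'] [Algebra k B]
    [Algebra k B'] [Algebra B B'] [IsScalarTower k B B'] (s : A ⊗[k] B) :
    tensorMapLeft k φ B' (algebraMap (A ⊗[k] B) (A ⊗[k] B') s) =
      algebraMap (A' ⊗[k] B) (A' ⊗[k] B') (tensorMapLeft k φ B s) := by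
  show tensorMapLeft k φ B' (tensorMapRight k A B B' s) =
    tensorMapRight k A' B B' (tensorMapLeft k φ B s)
  induction s using TensorProduct.induction_on with
  | zero => simp
  | tmul a b => simp [tensorMapLeft, tensorMapRight]
  | add s t hs ht => rw [map_add, map_add, hs, ht, map_add, map_add]

/-- D2-b. The unit datum over `A'` is a base change of the unit datum over `A`. -/
theorem unit_isBC {A A' : Type u} [CommRing A] [Algebra k A] [CommRing A'] [Algebra k A']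
    (φ : A →ₐ[k] A') :
    CurveGD.IsBC (B₀ := B₀) (B₁ := B₁) (B₀₁ := B₀₁) φ
      (GlueDatum.unit A (A ⊗[k] B₀) (A ⊗[k] B₁) (A ⊗[k] B₀₁))
      (GlueDatum.unit A' (A' ⊗[k] B₀) (A' ⊗[k] B₁) (A' ⊗[k] B₀₁)) :=
  ⟨{ b₀ := ringHomSemilinear (tensorMapLeft k φ B₀)
     b₁ := ringHomSemilinear (tensorMapLeft k φ B₁)
     b₀₁ := ringHomSemilinear (tensorMapLeft k φ B₀₁)
     comm₀ := fun s => tensorMapLeft_tensorMapRight φ B₀ B₀₁ s
     comm₁ := fun s => tensorMapLeft_tensorMapRight φ B₁ B₀₁ s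
     isBaseChange₀ := ringHomSemilinear_isBC _
     isBaseChange₁ := ringHomSemilinear_isBC _
     isBaseChange₀₁ := ringHomSemilinear_isBC _ }⟩

theorem tensorMapLeft_xUnit (hxy : algebraMap B₀ B₀₁ x * algebraMap B₁ B₀₁ y = 1)
    {A A' : Type u} [CommRing A] [Algebra k A] [CommRing A'] [Algebra k A'] (φ : A →ₐ[k] A') :
    Units.map (tensorMapLeft k φ B₀₁ : A ⊗[k] B₀₁ →* A' ⊗[k] B₀₁) (xUnit x y hxy A) =
      xUnit x y hxy A' := by
  apply Units.ext
  simp [xUnit, tensorMapLeft]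

theorem tensorMapLeft_xUnit_zpow (hxy : algebraMap B₀ B₀₁ x * algebraMap B₁ B₀₁ y = 1)
    {A A' : Type u} [CommRing A] [Algebra k A] [CommRing A'] [Algebra k A'] (φ : A →ₐ[k] A')
    (n : ℤ) :
    tensorMapLeft k φ B₀₁ ((xUnit x y hxy A ^ n : (A ⊗[k] B₀₁)ˣ) : A ⊗[k] B₀₁) =
      ((xUnit x y hxy A' ^ n : (A' ⊗[k] B₀₁)ˣ) : A' ⊗[k] B₀₁) := by
  rw [← tensorMapLeft_xUnit hxy φ, ← map_zpow]
  rfl

/-- D2-c. Twists commute with base change. -/
theorem twistE_isBC (hC : IsCurveChart k B₀ B₁ B₀₁ x y e) {A A' : Type u} [CommRing A]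
    [Algebra k A] [CommRing A'] [Algebra k A'] (φ : A →ₐ[k] A')
    {G : CurveGD k B₀ B₁ B₀₁ A} {G' : CurveGD k B₀ B₁ B₀₁ A'} (h : CurveGD.IsBC φ G G')
    (n : ℤ) :
    CurveGD.IsBC φ (twistE x y hC.mul_eq_one G n) (twistE x y hC.mul_eq_one G' n) := by
  obtain ⟨bc⟩ := h
  exact
    ⟨{ b₀ := bc.b₀
       b₁ := bc.b₁
       b₀₁ := bc.b₀₁
       comm₀ := bc.comm₀
       comm₁ := fun (s : G.N₁) => by
        show bc.b₀₁ (((xUnit x y hC.mul_eq_one A ^ n : (A ⊗[k] B₀₁)ˣ) : A ⊗[k] B₀₁) •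
            G.r₁ s : G.N₀₁) =
          (((xUnit x y hC.mul_eq_one A' ^ n : (A' ⊗[k] B₀₁)ˣ) : A' ⊗[k] B₀₁) •
            G'.r₁ (bc.b₁ s) : G'.N₀₁)
        rw [bc.b₀₁.map_smulₛₗ, bc.comm₁, tensorMapLeft_xUnit_zpow]
       isBaseChange₀ := bc.isBaseChange₀
       isBaseChange₁ := bc.isBaseChange₁
       isBaseChange₀₁ := bc.isBaseChange₀₁ }⟩

end

end Fermat.Agent.S25.H130
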