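import Fermat.Agent.S25.H130.Locus

/-!
# S25 / AS4 (helper130): the gluing datum of the charts
-/

set_option autoImplicit false
universe u
open CategoryTheory CategoryTheory.Limits AlgebraicGeometry AlgebraicGeometry.RelPicard
  NeronModelInfra GoodReductionJacobian TopologicalSpace

namespace Fermat.Agent.S25.H130

noncomputable section

variable {k : Type u} [Field k] {C : Scheme.{u}} {c : C ⟶ Spec (CommRingCat.of k)}
  {ε : SchemeHomOver (𝟙 (Spec (CommRingCat.of k))) c}

/-- The locus of the `i`-th chart over which its universal bundle lies in the `j`-th chart. -/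
def ovl (ch : ChartFamily c ε) (i j : ch.ι) : (chX ch i).Opens :=
  chartLocus ch j (ch.bundle i)

/-- The universal bundle of the `i`-th chart, restricted to the overlap with the `j`-th. -/
abbrev ovlBundle (ch : ChartFamily c ε) (i j : ch.ι) :
    RigidifiedLineBundle c ε ((ovl ch i j).ι ≫ chStr ch i) :=
  restrictOpen (ch.bundle i) (ovl ch i j)

theorem exists_trans (H : Hyp c ε) (ch : ChartFamily c ε) (i j : ch.ι) :
    ∃ φ : (ovl ch i j).toScheme ⟶ chX ch j, IsPB (ch.bundle j) φ (ovlBundle ch i j) :=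
  inChart_chartLocus H.sep ch j (ch.bundle i)

/-- The transition morphism from the overlap `ovl i j` to the `j`-th chart. -/
def trans (H : Hyp c ε) (ch : ChartFamily c ε) (i j : ch.ι) :
    (ovl ch i j).toScheme ⟶ chX ch j :=
  (exists_trans H ch i j).choose

theorem trans_isPB (H : Hyp c ε) (ch : ChartFamily c ε) (i j : ch.ι) :
    IsPB (ch.bundle j) (trans H ch i j) (ovlBundle ch i j) :=
  (exists_trans H ch i j).choose_spec

theorem trans_mem (H : Hyp c ε) (ch : ChartFamily c ε) (i j : ch.ι)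
    (x : (ovl ch i j).toScheme) : trans H ch i j x ∈ ovl ch j i :=
  mem_chartLocus_of_inChart ch i (ch.deg0 j) (trans_isPB H ch i j)
    ⟨(ovl ch i j).ι, isPB_restrictOpen _ _⟩ x

theorem range_trans_subset (H : Hyp c ε) (ch : ChartFamily c ε) (i j : ch.ι) :
    Set.range (trans H ch i j) ⊆ Set.range (ovl ch j i).ι := by
  rintro _ ⟨x, rfl⟩
  simpa using trans_mem H ch i j x

/-- The transition isomorphism `ovl i j ⟶ ovl j i`. -/
def tmap (H : Hyp c ε) (ch : ChartFamily c ε) (i j : ch.ι) :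
    (ovl ch i j).toScheme ⟶ (ovl ch j i).toScheme :=
  IsOpenImmersion.lift (ovl ch j i).ι (trans H ch i j) (range_trans_subset H ch i j)

@[reassoc]
theorem tmap_ι (H : Hyp c ε) (ch : ChartFamily c ε) (i j : ch.ι) :
    tmap H ch i j ≫ (ovl ch j i).ι = trans H ch i j :=
  IsOpenImmersion.lift_fac _ _ _

theorem tmap_isPB (H : Hyp c ε) (ch : ChartFamily c ε) (i j : ch.ι) :
    IsPB (ovlBundle ch j i) (tmap H ch i j) (ovlBundle ch i j) :=
  (isPB_restrictOpen _ _).of_comp ((trans_isPB H ch i j).of_eq (tmap_ι H ch i j).symm)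

/-- Morphisms into an overlap are determined by the pullback of the universal bundle. -/
theorem hom_ovl_ext (ch : ChartFamily c ε) (i j : ch.ι) {Z : Scheme.{u}}
    {z : Z ⟶ Spec (CommRingCat.of k)} (N : RigidifiedLineBundle c ε z)
    {f g : Z ⟶ (ovl ch i j).toScheme}
    (hf : IsPB (ovlBundle ch i j) f N) (hg : IsPB (ovlBundle ch i j) g N) : f = g := by
  rw [← cancel_mono (ovl ch i j).ι]
  exact inj_scheme ch i N ((isPB_restrictOpen _ _).comp hf) ((isPB_restrictOpen _ _).comp hg)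

/-- If the universal bundles of the charts `i` and `j` pull back to the same bundle along `a`
and `b`, then `a` maps into the overlap `ovl i j`. -/
theorem mem_ovl_of_isPB (ch : ChartFamily c ε) (i j : ch.ι) {Z : Scheme.{u}}
    {z : Z ⟶ Spec (CommRingCat.of k)} {L : RigidifiedLineBundle c ε z}
    {a : Z ⟶ chX ch i} {b : Z ⟶ chX ch j}
    (ha : IsPB (ch.bundle i) a L) (hb : IsPB (ch.bundle j) b L) (x : Z) : a x ∈ ovl ch i j :=
  mem_chartLocus_of_inChart ch j (ch.deg0 i) ha ⟨b, hb⟩ x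

theorem range_subset_ovl_of_isPB (ch : ChartFamily c ε) (i j : ch.ι) {Z : Scheme.{u}}
    {z : Z ⟶ Spec (CommRingCat.of k)} {L : RigidifiedLineBundle c ε z}
    {a : Z ⟶ chX ch i} {b : Z ⟶ chX ch j}
    (ha : IsPB (ch.bundle i) a L) (hb : IsPB (ch.bundle j) b L) :
    Set.range a ⊆ Set.range (ovl ch i j).ι := by
  rintro _ ⟨x, rfl⟩
  simpa using mem_ovl_of_isPB ch i j ha hb x

theorem ovl_self (ch : ChartFamily c ε) (i : ch.ι) : ovl ch i i = ⊤ := by
  rw [eq_top_iff]
  rintro x -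
  exact mem_chartLocus_of_inChart ch i (ch.deg0 i) (isPB_id (ch.bundle i))
    (inChart_bundle ch i) x

instance isIso_ovl_self_ι (ch : ChartFamily c ε) (i : ch.ι) : IsIso (ovl ch i i).ι := by
  rw [isIso_iff_isOpenImmersion_and_surjective]
  refine ⟨inferInstance, ⟨fun x => ?_⟩⟩
  have hx : x ∈ ovl ch i i := by rw [ovl_self]; trivial
  exact ⟨⟨x, hx⟩, rfl⟩

theorem tmap_self (H : Hyp c ε) (ch : ChartFamily c ε) (i : ch.ι) :
    tmap H ch i i = 𝟙 _ :=
  hom_ovl_ext ch i i _ (tmap_isPB H ch i i) (isPB_id _)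

/-- The triple overlap, as a pullback. -/
abbrev ovl₃ (ch : ChartFamily c ε) (i j k : ch.ι) : Scheme.{u} :=
  pullback (ovl ch i j).ι (ovl ch i k).ι

/-- The morphism from the triple overlap to the chart. -/
abbrev ovl₃ι (ch : ChartFamily c ε) (i j k : ch.ι) : ovl₃ ch i j k ⟶ chX ch i :=
  pullback.fst (ovl ch i j).ι (ovl ch i k).ι ≫ (ovl ch i j).ι

instance (ch : ChartFamily c ε) (i j k : ch.ι) : Mono (ovl₃ι ch i j k) := by
  unfold ovl₃ι
  infer_instance

/-- The universal bundle restricted to the triple overlap. -/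
abbrev ovl₃Bundle (ch : ChartFamily c ε) (i j k : ch.ι) :
    RigidifiedLineBundle c ε (ovl₃ι ch i j k ≫ chStr ch i) :=
  (ch.bundle i).pullbackAlong ⟨ovl₃ι ch i j k, rfl⟩

theorem ovl₃_isPB (ch : ChartFamily c ε) (i j k : ch.ι) :
    IsPB (ch.bundle i) (ovl₃ι ch i j k) (ovl₃Bundle ch i j k) :=
  isPB_mk _ _ rfl

theorem ovl₃_isPB_fst (ch : ChartFamily c ε) (i j k : ch.ι) :
    IsPB (ovlBundle ch i j) (pullback.fst (ovl ch i j).ι (ovl ch i k).ι) (ovl₃Bundle ch i j k) :=
  (isPB_restrictOpen _ _).of_comp (ovl₃_isPB ch i j k)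

theorem ovl₃_isPB_snd (ch : ChartFamily c ε) (i j k : ch.ι) :
    IsPB (ovlBundle ch i k) (pullback.snd (ovl ch i j).ι (ovl ch i k).ι) (ovl₃Bundle ch i j k) :=
  (isPB_restrictOpen _ _).of_comp ((ovl₃_isPB ch i j k).of_eq pullback.condition)

/-- Morphisms into a triple overlap are determined by the pullback of the universal bundle. -/
theorem hom_ovl₃_ext (ch : ChartFamily c ε) (i j l : ch.ι) {Z : Scheme.{u}}
    {z : Z ⟶ Spec (CommRingCat.of k)} (N : RigidifiedLineBundle c ε z)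
    {f g : Z ⟶ ovl₃ ch i j l}
    (hf : IsPB (ovl₃Bundle ch i j l) f N) (hg : IsPB (ovl₃Bundle ch i j l) g N) : f = g := by
  rw [← cancel_mono (ovl₃ι ch i j l)]
  exact inj_scheme ch i N ((ovl₃_isPB ch i j l).comp hf) ((ovl₃_isPB ch i j l).comp hg)

theorem ovl₃_trans_isPB (H : Hyp c ε) (ch : ChartFamily c ε) (i j k : ch.ι) :
    IsPB (ch.bundle j) (pullback.fst (ovl ch i j).ι (ovl ch i k).ι ≫ trans H ch i j)
      (ovl₃Bundle ch i j k) :=
  (trans_isPB H ch i j).comp (ovl₃_isPB_fst ch i j k)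

theorem ovl₃_trans_mem (H : Hyp c ε) (ch : ChartFamily c ε) (i j k : ch.ι)
    (x : ovl₃ ch i j k) :
    (pullback.fst (ovl ch i j).ι (ovl ch i k).ι ≫ trans H ch i j) x ∈ ovl ch j k :=
  mem_chartLocus_of_inChart ch k (ch.deg0 j) (ovl₃_trans_isPB H ch i j k)
    ((inChart_chartLocus H.sep ch k (ch.bundle i)).pullback (ovl₃_isPB_snd ch i j k)) x

theorem range_ovl₃_trans_subset (H : Hyp c ε) (ch : ChartFamily c ε)
    (i j k : ch.ι) :
    Set.range (pullback.fst (ovl ch i j).ι (ovl ch i k).ι ≫ trans H ch i j) ⊆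
      Set.range (ovl ch j k).ι := by
  rintro _ ⟨x, rfl⟩
  simpa using ovl₃_trans_mem H ch i j k x

/-- The transition morphism on triple overlaps. -/
def tmap₃ (H : Hyp c ε) (ch : ChartFamily c ε) (i j k : ch.ι) :
    ovl₃ ch i j k ⟶ ovl₃ ch j k i :=
  pullback.lift
    (IsOpenImmersion.lift (ovl ch j k).ι
      (pullback.fst (ovl ch i j).ι (ovl ch i k).ι ≫ trans H ch i j)
      (range_ovl₃_trans_subset H ch i j k))
    (pullback.fst (ovl ch i j).ι (ovl ch i k).ι ≫ tmap H ch i j)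
    (by rw [IsOpenImmersion.lift_fac, Category.assoc, tmap_ι])

theorem tmap₃_snd (H : Hyp c ε) (ch : ChartFamily c ε) (i j k : ch.ι) :
    tmap₃ H ch i j k ≫ pullback.snd _ _ =
      pullback.fst (ovl ch i j).ι (ovl ch i k).ι ≫ tmap H ch i j :=
  pullback.lift_snd _ _ _

theorem tmap₃_ι (H : Hyp c ε) (ch : ChartFamily c ε) (i j k : ch.ι) :
    tmap₃ H ch i j k ≫ ovl₃ι ch j k i =
      pullback.fst (ovl ch i j).ι (ovl ch i k).ι ≫ trans H ch i j := by
  unfold tmap₃ ovl₃ι
  rw [pullback.lift_fst_assoc, IsOpenImmersion.lift_fac]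

theorem tmap₃_isPB (H : Hyp c ε) (ch : ChartFamily c ε) (i j k : ch.ι) :
    IsPB (ovl₃Bundle ch j k i) (tmap₃ H ch i j k) (ovl₃Bundle ch i j k) :=
  (ovl₃_isPB ch j k i).of_comp
    ((ovl₃_trans_isPB H ch i j k).of_eq (tmap₃_ι H ch i j k).symm)

theorem tmap₃_cocycle (H : Hyp c ε) (ch : ChartFamily c ε) (i j k : ch.ι) :
    tmap₃ H ch i j k ≫ tmap₃ H ch j k i ≫ tmap₃ H ch k i j = 𝟙 _ :=
  hom_ovl₃_ext ch i j k _
    (((tmap₃_isPB H ch k i j).comp (tmap₃_isPB H ch j k i)).comp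
      (tmap₃_isPB H ch i j k))
    (isPB_id _)

/-- The gluing datum of the charts. -/
def glueData (H : Hyp c ε) (ch : ChartFamily c ε) : Scheme.GlueData.{u} where
  J := ch.ι
  U := chX ch
  V := fun p => (ovl ch p.1 p.2).toScheme
  f := fun i j => (ovl ch i j).ι
  f_mono := fun _ _ => inferInstance
  f_hasPullback := fun _ _ _ => inferInstance
  f_id := fun i => isIso_ovl_self_ι ch i
  t := fun i j => tmap H ch i j
  t_id := fun i => tmap_self H ch i
  t' := fun i j k => tmap₃ H ch i j k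
  t_fac := fun i j k => tmap₃_snd H ch i j k
  cocycle := fun i j k => tmap₃_cocycle H ch i j k
  f_open := fun _ _ => inferInstance

end

end Fermat.Agent.S25.H130
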