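import Fermat.Agent.S25.H130.Glue

/-!
# S25 / AS4 (helper130): the glued scheme `J`, its structure morphism and the Poincaré bundle
-/

set_option autoImplicit false
universe u
open CategoryTheory CategoryTheory.Limits AlgebraicGeometry AlgebraicGeometry.RelPicard
  NeronModelInfra GoodReductionJacobian TopologicalSpace

namespace Fermat.Agent.S25.H130

noncomputable section

variable {k : Type u} [Field k] {C : Scheme.{u}} {c : C ⟶ Spec (CommRingCat.of k)}
  {ε : SchemeHomOver (𝟙 (Spec (CommRingCat.of k))) c}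

/-- The glued scheme. -/
abbrev jac (H : Hyp c ε) (ch : ChartFamily c ε) : Scheme.{u} :=
  (glueData H ch).glued

/-- The open immersion of the `i`-th chart into the glued scheme. -/
abbrev jacι (H : Hyp c ε) (ch : ChartFamily c ε) (i : ch.ι) :
    chX ch i ⟶ jac H ch :=
  (glueData H ch).ι i

instance isOpenImmersion_jacι (H : Hyp c ε) (ch : ChartFamily c ε) (i : ch.ι) :
    IsOpenImmersion (jacι H ch i) :=
  (glueData H ch).ι_isOpenImmersion i

/-- The glue condition. -/
theorem ovl_ι_jacι (H : Hyp c ε) (ch : ChartFamily c ε) (i j : ch.ι) :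
    (ovl ch i j).ι ≫ jacι H ch i = trans H ch i j ≫ jacι H ch j := by
  have h := (glueData H ch).glue_condition i j
  rw [← tmap_ι, Category.assoc]
  exact h.symm

/-- Two morphisms into charts which agree in `J` factor through the overlap. -/
theorem exists_lift_ovl (H : Hyp c ε) (ch : ChartFamily c ε) (i j : ch.ι)
    {Z : Scheme.{u}} (a : Z ⟶ chX ch i) (b : Z ⟶ chX ch j)
    (h : a ≫ jacι H ch i = b ≫ jacι H ch j) :
    ∃ l : Z ⟶ (ovl ch i j).toScheme, l ≫ (ovl ch i j).ι = a ∧ l ≫ trans H ch i j = b := by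
  obtain ⟨l, hl₁, hl₂⟩ :=
    PullbackCone.IsLimit.lift' ((glueData H ch).vPullbackConeIsLimit i j) a b h
  refine ⟨l, hl₁, ?_⟩
  rw [← tmap_ι]
  exact hl₂

/-- **Key lemma.** Two morphisms into charts along which the universal bundles pull back to the
same bundle agree in `J`. -/
theorem comp_jacι_eq (H : Hyp c ε) (ch : ChartFamily c ε) (i j : ch.ι)
    {Z : Scheme.{u}} {z : Z ⟶ Spec (CommRingCat.of k)} (L : RigidifiedLineBundle c ε z)
    {a : Z ⟶ chX ch i} {b : Z ⟶ chX ch j}
    (ha : IsPB (ch.bundle i) a L) (hb : IsPB (ch.bundle j) b L) :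
    a ≫ jacι H ch i = b ≫ jacι H ch j := by
  have hrange : Set.range a ⊆ Set.range (ovl ch i j).ι := range_subset_ovl_of_isPB ch i j ha hb
  let l := IsOpenImmersion.lift (ovl ch i j).ι a hrange
  have hl : l ≫ (ovl ch i j).ι = a := IsOpenImmersion.lift_fac _ _ _
  have hL : IsPB (ovlBundle ch i j) l L := (isPB_restrictOpen _ _).of_comp (ha.of_eq hl.symm)
  have hb' : l ≫ trans H ch i j = b :=
    inj_scheme ch j L ((trans_isPB H ch i j).comp hL) hb
  rw [← hl, ← hb', Category.assoc, Category.assoc, ovl_ι_jacι]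

theorem jacStr_compat (H : Hyp c ε) (ch : ChartFamily c ε) (i j : ch.ι) :
    pullback.fst (jacι H ch i) (jacι H ch j) ≫ chStr ch i =
      pullback.snd (jacι H ch i) (jacι H ch j) ≫ chStr ch j := by
  obtain ⟨l, hl₁, hl₂⟩ := exists_lift_ovl H ch i j
    (pullback.fst (jacι H ch i) (jacι H ch j))
    (pullback.snd (jacι H ch i) (jacι H ch j)) pullback.condition
  rw [← hl₁, ← hl₂, Category.assoc, Category.assoc, (trans_isPB H ch i j).w]

/-- The structure morphism of the glued scheme. -/
def jacStr (H : Hyp c ε) (ch : ChartFamily c ε) :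
    jac H ch ⟶ Spec (CommRingCat.of k) :=
  (glueData H ch).openCover.glueMorphisms (fun i => chStr ch i)
    (fun i j => jacStr_compat H ch i j)

@[reassoc]
theorem jacι_jacStr (H : Hyp c ε) (ch : ChartFamily c ε) (i : ch.ι) :
    jacι H ch i ≫ jacStr H ch = chStr ch i :=
  (glueData H ch).openCover.ι_glueMorphisms _ _ i

/-- The image of the `i`-th chart in the glued scheme. -/
abbrev jacU (H : Hyp c ε) (ch : ChartFamily c ε) (i : ch.ι) :
    (jac H ch).Opens :=
  (jacι H ch i).opensRange

theorem iSup_jacU (H : Hyp c ε) (ch : ChartFamily c ε) :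
    (⨆ i, jacU H ch i) = ⊤ :=
  (glueData H ch).openCover.iSup_opensRange

/-- The chart of `J`, from the image of the chart back to the chart. -/
abbrev jacE (H : Hyp c ε) (ch : ChartFamily c ε) (i : ch.ι) :
    (jacU H ch i).toScheme ⟶ chX ch i :=
  (jacι H ch i).isoOpensRange.inv

theorem jacE_jacι (H : Hyp c ε) (ch : ChartFamily c ε) (i : ch.ι) :
    jacE H ch i ≫ jacι H ch i = (jacU H ch i).ι :=
  Scheme.Hom.isoOpensRange_inv_comp _

theorem jacE_chStr (H : Hyp c ε) (ch : ChartFamily c ε) (i : ch.ι) :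
    jacE H ch i ≫ chStr ch i = (jacU H ch i).ι ≫ jacStr H ch := by
  rw [← jacE_jacι, Category.assoc, jacι_jacStr]

/-- The universal bundle of the `i`-th chart, transported to the image of the chart in `J`. -/
abbrev jacN (H : Hyp c ε) (ch : ChartFamily c ε) (i : ch.ι) :
    RigidifiedLineBundle c ε ((jacU H ch i).ι ≫ jacStr H ch) :=
  (ch.bundle i).pullbackAlong ⟨jacE H ch i, jacE_chStr H ch i⟩

theorem jacN_isPB (H : Hyp c ε) (ch : ChartFamily c ε) (i : ch.ι) :
    IsPB (ch.bundle i) (jacE H ch i) (jacN H ch i) :=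
  isPB_mk _ _ _

theorem exists_poincare (H : Hyp c ε) (ch : ChartFamily c ε) :
    ∃ P : RigidifiedLineBundle c ε (jacStr H ch),
      ∀ i, IsPB P (jacι H ch i) (ch.bundle i) := by
  obtain ⟨P, hP⟩ := sheafGlue_isPB H.glue (jacU H ch) (iSup_jacU H ch)
    (fun i => (jacU H ch i).ι ≫ jacStr H ch) (fun _ => rfl) (jacN H ch) (by
      intro i j
      have hL := isPB_mk (jacN H ch i)
        ((jac H ch).homOfLE (inf_le_left : jacU H ch i ⊓ jacU H ch j ≤ jacU H ch i))
        rfl
      refine ⟨_, _, hL, ?_⟩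
      refine (jacN_isPB H ch j).of_comp ?_
      have ha := (jacN_isPB H ch i).comp hL
      have hab : ((jac H ch).homOfLE
            (inf_le_left : jacU H ch i ⊓ jacU H ch j ≤ jacU H ch i) ≫
              jacE H ch i) ≫ jacι H ch i =
          ((jac H ch).homOfLE
            (inf_le_right : jacU H ch i ⊓ jacU H ch j ≤ jacU H ch j) ≫
              jacE H ch j) ≫ jacι H ch j := by
        rw [Category.assoc, Category.assoc, jacE_jacι, jacE_jacι, Scheme.homOfLE_ι,
          Scheme.homOfLE_ι]
      obtain ⟨l, hl₁, hl₂⟩ := exists_lift_ovl H ch i j _ _ hab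
      have h1 : IsPB (ovlBundle ch i j) l _ :=
        (isPB_restrictOpen _ _).of_comp (ha.of_eq hl₁.symm)
      exact ((trans_isPB H ch i j).comp h1).of_eq hl₂)
  refine ⟨P, fun i => ?_⟩
  have h1 : IsPB (jacN H ch i) (jacι H ch i).isoOpensRange.hom (ch.bundle i) :=
    (jacN_isPB H ch i).symm_of_inv _ (Iso.hom_inv_id _)
  exact ((hP i).comp h1).of_eq (Scheme.Hom.isoOpensRange_hom_ι _)

end

end Fermat.Agent.S25.H130
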