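import Fermat.Agent.S25.H130.Chart

/-!
# S25 / AS4 (helper130): the chart loci are compatible with base change and cover the base
-/

set_option autoImplicit false
universe u
open CategoryTheory CategoryTheory.Limits AlgebraicGeometry AlgebraicGeometry.RelPicard
  NeronModelInfra GoodReductionJacobian TopologicalSpace

namespace Fermat.Agent.S25.H130

noncomputable section

variable {k : Type u} [Field k] {C : Scheme.{u}} {c : C ⟶ Spec (CommRingCat.of k)}
  {ε : SchemeHomOver (𝟙 (Spec (CommRingCat.of k))) c}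

variable {T T' : Scheme.{u}} {t : T ⟶ Spec (CommRingCat.of k)}
  {t' : T' ⟶ Spec (CommRingCat.of k)}

/-- Points of an affine open of `T` outside `V(I)` lie in the chart locus. -/
theorem mem_chartLocus_of_notMem (ch : ChartFamily c ε) (i : ch.ι)
    {N : RigidifiedLineBundle c ε t} (A : CommRingCat.{u}) (a : Spec A ⟶ T) [IsOpenImmersion a]
    {s : Spec A ⟶ Spec (CommRingCat.of k)} {NA : RigidifiedLineBundle c ε s} (hNA : IsPB N a NA)
    (I : Ideal A)
    (hI : ∀ (A' : CommRingCat.{u}) (ψ : A ⟶ A') {s' : Spec A' ⟶ Spec (CommRingCat.of k)}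
      (N' : RigidifiedLineBundle c ε s'), IsPB NA (Spec.map ψ) N' →
        I.map ψ.hom = ⊤ → InChart ch i N')
    (p : Spec A) (f : A) (hf : f ∈ I) (hfp : f ∉ (p : PrimeSpectrum A).asIdeal) :
    a p ∈ chartLocus ch i N := by
  let ψ : A ⟶ CommRingCat.of (Localization.Away f) :=
    CommRingCat.ofHom (algebraMap A (Localization.Away f))
  have hNf := isPB_mk NA (Spec.map ψ) rfl
  have htop : I.map ψ.hom = ⊤ :=
    Ideal.eq_top_of_isUnit_mem _ (Ideal.mem_map_of_mem _ hf)
      (IsLocalization.Away.algebraMap_isUnit f)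
  have hin := hI _ ψ _ hNf htop
  have hle := opensRange_le_chartLocus (Spec.map ψ ≫ a) (hNA.comp hNf) hin
  apply hle
  have hp : (p : PrimeSpectrum A) ∈ Set.range (PrimeSpectrum.comap (algebraMap A (Localization.Away f))) := by
    rw [PrimeSpectrum.localization_away_comap_range (Localization.Away f) f]
    exact hfp
  obtain ⟨q, hq⟩ := hp
  exact ⟨q, by rw [Scheme.Hom.comp_apply]; exact congrArg a hq⟩

/-- If the pullback of `N` along `f` lies in the `i`-th chart, then `f` maps into the chart
locus of `N`. -/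
theorem mem_chartLocus_of_inChart (ch : ChartFamily c ε) (i : ch.ι)
    {N : RigidifiedLineBundle c ε t} (hN : FibrewiseAlgEquivZero N) {f : T' ⟶ T}
    {N' : RigidifiedLineBundle c ε t'} (hf : IsPB N f N') (h : InChart ch i N') (x' : T') :
    f x' ∈ chartLocus ch i N := by
  -- an affine open neighbourhood of `f x'`
  let a := T.affineOpenCover.f (T.affineOpenCover.idx (f x'))
  have hNA := isPB_mk N a rfl
  obtain ⟨I, -, hI⟩ := locus_spec_isPB ch _ _ (hNA.deg0 hN)
  -- the point `x'` as a morphism from the spectrum of its residue field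
  let pt := T'.fromSpecResidueField x'
  have hrange : Set.range (pt ≫ f) ⊆ Set.range a := by
    rintro _ ⟨z, rfl⟩
    rw [Scheme.Hom.comp_apply, Scheme.fromSpecResidueField_apply]
    exact T.affineOpenCover.covers (f x')
  let l := IsOpenImmersion.lift a (pt ≫ f) hrange
  have hl : l ≫ a = pt ≫ f := IsOpenImmersion.lift_fac _ _ _
  obtain ⟨ψ, hψ⟩ : ∃ ψ, l = Spec.map ψ := ⟨Spec.preimage l, (Spec.map_preimage l).symm⟩
  have hNκ := isPB_mk N' pt rfl
  have h1 : IsPB _ (Spec.map ψ) _ := hNA.of_comp ((hf.comp hNκ).of_eq (hψ ▸ hl.symm))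
  have htop := (hI i _ ψ _ h1).1 (h.pullback hNκ)
  -- a point of the residue field spectrum
  obtain ⟨z⟩ : Nonempty (Spec (T'.residueField x')) := inferInstance
  have hz : a (l z) = f x' := by
    rw [← Scheme.Hom.comp_apply, hl, Scheme.Hom.comp_apply, Scheme.fromSpecResidueField_apply]
  rw [← hz]
  have hnot : ¬ I i ≤ ((l z : Spec _) : PrimeSpectrum _).asIdeal := by
    intro hle
    have h2 : (I i).map ψ.hom ≤ (z : PrimeSpectrum _).asIdeal := by
      rw [Ideal.map_le_iff_le_comap]
      intro r hr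
      have := hle hr
      rw [hψ] at this
      exact this
    rw [htop] at h2
    exact (z : PrimeSpectrum _).isPrime.ne_top (top_le_iff.1 h2)
  obtain ⟨r, hr, hrp⟩ := Set.not_subset.1 hnot
  exact mem_chartLocus_of_notMem ch i _ a hNA (I i)
    (fun A' ψ' s' N'' hN'' htop' => (hI i A' ψ' N'' hN'').2 htop') (l z) r hr hrp

/-- The chart loci of a degree-zero bundle cover the base. -/
theorem iSup_chartLocus (ch : ChartFamily c ε) {N : RigidifiedLineBundle c ε t}
    (hN : FibrewiseAlgEquivZero N) : (⨆ i, chartLocus ch i N) = ⊤ := by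
  rw [eq_top_iff]
  rintro x -
  let a := T.affineOpenCover.f (T.affineOpenCover.idx x)
  have hNA := isPB_mk N a rfl
  obtain ⟨I, hItop, hI⟩ := locus_spec_isPB ch _ _ (hNA.deg0 hN)
  obtain ⟨p, hp⟩ := T.affineOpenCover.covers x
  have hex : ∃ i, ¬ I i ≤ (p : PrimeSpectrum _).asIdeal := by
    by_contra hcon
    push Not at hcon
    have : (⨆ i, I i) ≤ (p : PrimeSpectrum _).asIdeal := iSup_le hcon
    rw [hItop] at this
    exact (p : PrimeSpectrum _).isPrime.ne_top (top_le_iff.1 this)
  obtain ⟨i, hi⟩ := hex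
  obtain ⟨r, hr, hrp⟩ := Set.not_subset.1 hi
  refine Opens.mem_iSup.2 ⟨i, ?_⟩
  rw [← hp]
  exact mem_chartLocus_of_notMem ch i _ a hNA (I i)
    (fun A' ψ' s' N'' hN'' htop' => (hI i A' ψ' N'' hN'').2 htop') p r hr hrp

end

end Fermat.Agent.S25.H130
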