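import Fermat.Agent.S25.H130.Affine

/-!
# S25 / AS4 (helper130): the relation "`N` is a pullback of `M` along `f`"

`IsPB M f N` says that the rigidified line bundle `N` (over `t' : T' ⟶ Spec k`) is isomorphic to
the pullback of `M` (over `t : T ⟶ Spec k`) along the morphism of schemes `f : T' ⟶ T`
(which is then automatically a morphism over `k`).  The morphism `f` is a plain morphism of
schemes, so that equalities of morphisms can be rewritten freely.
-/

set_option autoImplicit false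
universe u
open CategoryTheory CategoryTheory.Limits AlgebraicGeometry AlgebraicGeometry.RelPicard
  NeronModelInfra GoodReductionJacobian

namespace Fermat.Agent.S25.H130

noncomputable section

variable {k : Type u} [Field k] {C : Scheme.{u}} {c : C ⟶ Spec (CommRingCat.of k)}
  {ε : SchemeHomOver (𝟙 (Spec (CommRingCat.of k))) c}

variable {T T' T'' : Scheme.{u}} {t : T ⟶ Spec (CommRingCat.of k)}
  {t' : T' ⟶ Spec (CommRingCat.of k)} {t'' : T'' ⟶ Spec (CommRingCat.of k)}

/-- `N` is isomorphic to the pullback of `M` along `f`. -/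
def IsPB (M : RigidifiedLineBundle c ε t) (f : T' ⟶ T) (N : RigidifiedLineBundle c ε t') : Prop :=
  ∃ h : f ≫ t = t', RIso (M.pullbackAlong (⟨f, h⟩ : SchemeHomOver t' t)) N

theorem IsPB.w {M : RigidifiedLineBundle c ε t} {f : T' ⟶ T} {N : RigidifiedLineBundle c ε t'}
    (h : IsPB M f N) : f ≫ t = t' := h.1

theorem isPB_pullbackAlong (M : RigidifiedLineBundle c ε t) (g : SchemeHomOver t' t) :
    IsPB M g.1 (M.pullbackAlong g) :=
  ⟨g.2, rIso_refl _⟩

theorem isPB_mk (M : RigidifiedLineBundle c ε t) (f : T' ⟶ T) (h : f ≫ t = t') :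
    IsPB M f (M.pullbackAlong (⟨f, h⟩ : SchemeHomOver t' t)) :=
  ⟨h, rIso_refl _⟩

theorem isPB_restrictOpen (M : RigidifiedLineBundle c ε t) (U : T.Opens) :
    IsPB M U.ι (restrictOpen M U) :=
  ⟨rfl, rIso_refl _⟩

theorem IsPB.of_rIso_right {M : RigidifiedLineBundle c ε t} {f : T' ⟶ T}
    {N N' : RigidifiedLineBundle c ε t'} (h : IsPB M f N) (e : RIso N N') : IsPB M f N' :=
  ⟨h.1, rIso_trans h.2 e⟩

theorem IsPB.of_rIso_left {M M' : RigidifiedLineBundle c ε t} {f : T' ⟶ T}
    {N : RigidifiedLineBundle c ε t'} (h : IsPB M f N) (e : RIso M M') : IsPB M' f N :=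
  ⟨h.1, rIso_trans (rIso_pullbackAlong (rIso_symm e) _) h.2⟩

theorem IsPB.rIso {M : RigidifiedLineBundle c ε t} {f : T' ⟶ T}
    {N N' : RigidifiedLineBundle c ε t'} (h : IsPB M f N) (h' : IsPB M f N') : RIso N N' :=
  rIso_trans (rIso_symm h.2) h'.2

theorem IsPB.of_eq {M : RigidifiedLineBundle c ε t} {f f' : T' ⟶ T}
    {N : RigidifiedLineBundle c ε t'} (h : IsPB M f N) (e : f = f') : IsPB M f' N := by
  subst e
  exact h

theorem IsPB.comp {M : RigidifiedLineBundle c ε t} {f : T' ⟶ T}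
    {N : RigidifiedLineBundle c ε t'} {f' : T'' ⟶ T'} {N' : RigidifiedLineBundle c ε t''}
    (h : IsPB M f N) (h' : IsPB N f' N') : IsPB M (f' ≫ f) N' := by
  obtain ⟨hw, e⟩ := h
  obtain ⟨hw', e'⟩ := h'
  refine ⟨by rw [Category.assoc, hw, hw'], ?_⟩
  refine rIso_trans ?_ e'
  refine rIso_trans ?_ (rIso_pullbackAlong e _)
  exact rIso_symm (rIso_pullbackAlong_of_comp_eq M ⟨f, hw⟩ ⟨f', hw'⟩ _ rfl)

theorem isPB_id (M : RigidifiedLineBundle c ε t) : IsPB M (𝟙 T) M :=
  ⟨Category.id_comp t, rIso_pullbackAlong_id M _⟩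

theorem isPB_id_iff {M N : RigidifiedLineBundle c ε t} : IsPB M (𝟙 T) N ↔ RIso M N :=
  ⟨fun h => (isPB_id M).rIso h, fun h => (isPB_id M).of_rIso_right h⟩

theorem IsPB.deg0 {M : RigidifiedLineBundle c ε t} {f : T' ⟶ T}
    {N : RigidifiedLineBundle c ε t'} (h : IsPB M f N) (hM : FibrewiseAlgEquivZero M) :
    FibrewiseAlgEquivZero N :=
  deg0_of_rIso h.2 (deg0_pullbackAlong hM _)

/-- Existence of a pullback along any morphism, with prescribed structure morphism. -/
theorem exists_isPB (M : RigidifiedLineBundle c ε t) (f : T' ⟶ T) (h : f ≫ t = t') :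
    ∃ N : RigidifiedLineBundle c ε t', IsPB M f N :=
  ⟨_, isPB_mk M f h⟩

/-- Pullback along an isomorphism can be inverted. -/
theorem IsPB.symm_of_inv {M : RigidifiedLineBundle c ε t} {f : T' ⟶ T}
    {N : RigidifiedLineBundle c ε t'} (h : IsPB M f N) (g : T ⟶ T') (hgf : g ≫ f = 𝟙 T) :
    IsPB N g M := by
  have hw : g ≫ t' = t := by rw [← h.w, ← Category.assoc, hgf, Category.id_comp]
  have h1 : IsPB N g (N.pullbackAlong (⟨g, hw⟩ : SchemeHomOver t t')) := isPB_mk N g hw
  have h2 : IsPB M (𝟙 T) (N.pullbackAlong (⟨g, hw⟩ : SchemeHomOver t t')) :=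
    (h.comp h1).of_eq hgf
  exact h1.of_rIso_right (rIso_symm (isPB_id_iff.1 h2))

/-- Two-out-of-three: if `N'` is a pullback of `M` along `f' ≫ f` and `N` is a pullback of `M`
along `f`, then `N'` is a pullback of `N` along `f'`. -/
theorem IsPB.of_comp {M : RigidifiedLineBundle c ε t} {f : T' ⟶ T}
    {N : RigidifiedLineBundle c ε t'} {f' : T'' ⟶ T'} {N' : RigidifiedLineBundle c ε t''}
    (h : IsPB M f N) (h' : IsPB M (f' ≫ f) N') : IsPB N f' N' := by
  have hw : f' ≫ t' = t'' := by rw [← h.w, ← Category.assoc, h'.w]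
  have h1 : IsPB N f' (N.pullbackAlong (⟨f', hw⟩ : SchemeHomOver t'' t')) := isPB_mk N f' hw
  exact h1.of_rIso_right ((h.comp h1).rIso h')

end

end Fermat.Agent.S25.H130
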