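import Fermat.Agent.S25.H130.PB

/-!
# S25 / AS4 (helper130): the descent statements and the chart axioms in `IsPB` form
-/

set_option autoImplicit false
universe u
open CategoryTheory CategoryTheory.Limits AlgebraicGeometry AlgebraicGeometry.RelPicard
  NeronModelInfra GoodReductionJacobian

namespace Fermat.Agent.S25.H130

noncomputable section

variable {k : Type u} [Field k] {C : Scheme.{u}} {c : C ⟶ Spec (CommRingCat.of k)}
  {ε : SchemeHomOver (𝟙 (Spec (CommRingCat.of k))) c}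

variable {T : Scheme.{u}} {t : T ⟶ Spec (CommRingCat.of k)}

/-- The three descent hypotheses of block AS4, bundled (so that they can be passed around as a
single opaque proof). -/
structure Hyp (c : C ⟶ Spec (CommRingCat.of k))
    (ε : SchemeHomOver (𝟙 (Spec (CommRingCat.of k))) c) : Prop where
  sep : Stmt.SheafSep c ε
  glue : Stmt.SheafGlue c ε
  locP : Stmt.LocalP c ε

/-- SHEAF-SEP in `IsPB` form. -/
theorem sheafSep_isPB (hSep : Stmt.SheafSep c ε) {ι : Type u} (U : ι → T.Opens)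
    (hU : (⨆ i, U i) = ⊤) (M M' : RigidifiedLineBundle c ε t)
    (h : ∀ i, ∃ (s : (U i).toScheme ⟶ Spec (CommRingCat.of k))
      (N : RigidifiedLineBundle c ε s), IsPB M (U i).ι N ∧ IsPB M' (U i).ι N) :
    RIso M M' := by
  refine hSep t U hU M M' fun i => ?_
  obtain ⟨s, N, h1, h2⟩ := h i
  obtain rfl : (U i).ι ≫ t = s := h1.w
  exact rIso_trans ((isPB_restrictOpen M (U i)).rIso h1)
    (rIso_symm ((isPB_restrictOpen M' (U i)).rIso h2))

/-- SHEAF-GLUE in `IsPB` form. -/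
theorem sheafGlue_isPB (hGlue : Stmt.SheafGlue c ε) {ι : Type u} (U : ι → T.Opens)
    (hU : (⨆ i, U i) = ⊤) (s : ∀ i, (U i).toScheme ⟶ Spec (CommRingCat.of k))
    (hs : ∀ i, (U i).ι ≫ t = s i)
    (N : ∀ i, RigidifiedLineBundle c ε (s i))
    (h : ∀ i j, ∃ (r : (U i ⊓ U j).toScheme ⟶ Spec (CommRingCat.of k))
      (L : RigidifiedLineBundle c ε r),
      IsPB (N i) (T.homOfLE (inf_le_left : U i ⊓ U j ≤ U i)) L ∧
        IsPB (N j) (T.homOfLE (inf_le_right : U i ⊓ U j ≤ U j)) L) :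
    ∃ M₀ : RigidifiedLineBundle c ε t, ∀ i, IsPB M₀ (U i).ι (N i) := by
  obtain rfl : (fun i => (U i).ι ≫ t) = s := funext hs
  obtain ⟨M₀, hM₀⟩ := hGlue t U hU N fun i j => by
    obtain ⟨r, L, h1, h2⟩ := h i j
    have e1 : IsPB (N i) (T.homOfLE (inf_le_left : U i ⊓ U j ≤ U i))
        (restrictLE (N i) (inf_le_left : U i ⊓ U j ≤ U i)) :=
      ⟨by rw [← Category.assoc, Scheme.homOfLE_ι], rIso_refl _⟩
    have e2 : IsPB (N j) (T.homOfLE (inf_le_right : U i ⊓ U j ≤ U j))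
        (restrictLE (N j) (inf_le_right : U i ⊓ U j ≤ U j)) :=
      ⟨by rw [← Category.assoc, Scheme.homOfLE_ι], rIso_refl _⟩
    obtain rfl : (U i ⊓ U j).ι ≫ t = r := by
      rw [← h1.w, ← Category.assoc, Scheme.homOfLE_ι]
    exact rIso_trans (e1.rIso h1) (rIso_symm (e2.rIso h2))
  exact ⟨M₀, fun i => (isPB_restrictOpen M₀ (U i)).of_rIso_right (hM₀ i)⟩

/-- LOCAL-P in `IsPB` form. -/
theorem localP_isPB (hLoc : Stmt.LocalP c ε) {ι : Type u} (U : ι → T.Opens)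
    (hU : (⨆ i, U i) = ⊤) (M : RigidifiedLineBundle c ε t)
    (h : ∀ i, ∃ (s : (U i).toScheme ⟶ Spec (CommRingCat.of k))
      (N : RigidifiedLineBundle c ε s), IsPB M (U i).ι N ∧ FibrewiseAlgEquivZero N) :
    FibrewiseAlgEquivZero M := by
  refine hLoc t U hU M fun i => ?_
  obtain ⟨s, N, h1, h2⟩ := h i
  obtain rfl : (U i).ι ≫ t = s := h1.w
  exact deg0_of_rIso (rIso_symm ((isPB_restrictOpen M (U i)).rIso h1)) h2

/-- `ChartFamily.inj` for affine schemes, `IsPB` form. -/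
theorem inj_spec_isPB (ch : ChartFamily c ε) (i : ch.ι) (A : CommRingCat.{u})
    {s : Spec A ⟶ Spec (CommRingCat.of k)} (N : RigidifiedLineBundle c ε s)
    {φ φ' : Spec A ⟶ Spec (CommRingCat.of (ch.R i))}
    (h : IsPB (ch.bundle i) φ N) (h' : IsPB (ch.bundle i) φ' N) : φ = φ' :=
  congrArg Subtype.val
    (inj_spec ch i A s ⟨φ, h.w⟩ ⟨φ', h'.w⟩ (rIso_trans h.2 (rIso_symm h'.2)))

/-- `ChartFamily.inj` for arbitrary schemes: classifying maps into a chart are unique. -/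
theorem inj_scheme (ch : ChartFamily c ε) (i : ch.ι) (N : RigidifiedLineBundle c ε t)
    {φ φ' : T ⟶ Spec (CommRingCat.of (ch.R i))}
    (h : IsPB (ch.bundle i) φ N) (h' : IsPB (ch.bundle i) φ' N) : φ = φ' := by
  refine Scheme.Cover.hom_ext T.affineOpenCover.openCover _ _ fun j => ?_
  have hN := isPB_mk N (T.affineOpenCover.f j) rfl
  exact inj_spec_isPB ch i _ _ (h.comp hN) (h'.comp hN)

/-- `ChartFamily.locus` for affine schemes, `IsPB` form. -/
theorem locus_spec_isPB (ch : ChartFamily c ε) (A : CommRingCat.{u})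
    {s : Spec A ⟶ Spec (CommRingCat.of k)} (M : RigidifiedLineBundle c ε s)
    (hM : FibrewiseAlgEquivZero M) :
    ∃ I : ch.ι → Ideal A, (⨆ i, I i) = ⊤ ∧
      ∀ (i : ch.ι) (A' : CommRingCat.{u}) (ψ : A ⟶ A')
        {s' : Spec A' ⟶ Spec (CommRingCat.of k)} (N : RigidifiedLineBundle c ε s'),
        IsPB M (Spec.map ψ) N →
        ((∃ φ : Spec A' ⟶ Spec (CommRingCat.of (ch.R i)), IsPB (ch.bundle i) φ N) ↔
          (I i).map ψ.hom = ⊤) := by
  obtain ⟨I, hI, hloc⟩ := locus_spec ch A s M hM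
  refine ⟨I, hI, fun i A' ψ s' N hN => ?_⟩
  have key := hloc i A' s' ⟨Spec.map ψ, hN.w⟩
  simp only [Spec.preimage_map] at key
  rw [← key]
  constructor
  · rintro ⟨φ, hφ⟩
    exact ⟨⟨φ, hφ.w⟩, rIso_trans hφ.2 (rIso_symm hN.2)⟩
  · rintro ⟨φ, hφ⟩
    exact ⟨φ.1, φ.2, rIso_trans hφ hN.2⟩

end

end Fermat.Agent.S25.H130
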